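import Fermat.Agent.H13.Cft.StepD

/-!
# P-CFT row 800 SD-SMALL (helper86): three small frame lemmas

* `goodSub : GoodSubStatement`   subobjects of good modules are good;
* `permGood : PermGoodStatement` permutation modules `k[G/U]`, `U` open, are good;
* `additive : AdditiveStatement` the four functors are additive.
-/

set_option autoImplicit false

universe u

open CategoryTheory CategoryTheory.Limits

namespace Fermat.Agent.H86.CftSmall

open Fermat.Agent.H13.Cft Fermat.Agent.H53 Fermat.Agent.H47.Cft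

/-! ### (1) subobjects -/

theorem goodSub : GoodSubStatement.{u} := by
  intro k G _ _ 𝒰 X hX hfin htriv
  have hmono : Mono X.f := hX.mono_f
  have hinj : Function.Injective X.f.hom := (Rep.mono_iff_injective X.f).mp hmono
  refine ⟨?_, ?_⟩
  · have : IsNoetherian k X.X₂ := isNoetherian_of_isNoetherianRing_of_finite k X.X₂
    exact Module.Finite.of_injective X.f.hom.toLinearMap hinj
  · obtain ⟨N, hN, h⟩ := htriv
    refine ⟨N, hN, fun s hs => ?_⟩
    refine LinearMap.ext fun m => hinj ?_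
    have h1 := Rep.hom_comm_apply X.f s m
    rw [h1, h s hs]
    rfl

/-! ### (2) permutation modules -/

theorem permGood : PermGoodStatement.{u} := by
  intro k G _ _ 𝒰 U hU
  obtain ⟨N, hN, hNU⟩ := hU
  have hNnormal : N.Normal := 𝒰.normal N hN
  have hNfin : N.FiniteIndex := 𝒰.finiteIndex N hN
  have hUfin : U.FiniteIndex := Subgroup.finiteIndex_of_le hNU
  have hfinite : Finite (G ⧸ U) := Subgroup.finite_quotient_of_finiteIndex
  refine ⟨inferInstanceAs (Module.Finite k (MonoidAlgebra k (G ⧸ U))), N, hN, fun n hn => ?_⟩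
  refine LinearMap.ext fun a => MonoidAlgebra.coeff_injective (Finsupp.ext fun q => ?_)
  show ((Representation.ofMulAction k G (G ⧸ U) n) a).coeff q = a.coeff q
  rw [Representation.coeff_ofMulAction]
  congr 1
  obtain ⟨x, rfl⟩ := QuotientGroup.mk_surjective q
  show ((n⁻¹ * x : G) : G ⧸ U) = (x : G ⧸ U)
  rw [QuotientGroup.eq]
  have h1 : (n⁻¹ * x)⁻¹ * x = x⁻¹ * n * x := by group
  rw [h1]
  have h2 : x⁻¹ * n * x⁻¹⁻¹ ∈ N := hNnormal.conj_mem n hn x⁻¹
  rw [inv_inv] at h2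
  exact hNU h2

/-! ### (3) additivity -/

section add

variable {k G : Type u} [CommRing k] [Group G]

theorem lvlMap_add' (𝒰 : LevelSys G) {M M' : Rep.{u} k G} (f g : M ⟶ M') :
    lvlMap 𝒰 (f + g) = lvlMap 𝒰 f + lvlMap 𝒰 g := by
  ext n x : 3
  apply Subtype.ext
  funext y
  rfl

theorem locMap_add' (𝔄 : ArithDatum k G) {M M' : Rep.{u} k G} (f g : M ⟶ M') :
    locMap 𝔄 (f + g) = locMap 𝔄 f + locMap 𝔄 g := by
  ext n x : 3
  funext v
  apply Subtype.ext
  funext y
  rfl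

theorem dualTwistMap_add' (χ : G →* kˣ) {M M' : Rep.{u} k G} (f g : M ⟶ M') :
    dualTwistMap χ (f + g) = dualTwistMap χ f + dualTwistMap χ g := by
  ext ξ : 3
  refine LinearMap.ext fun m => ?_
  show ξ ((f + g).hom m) = ξ (f.hom m) + ξ (g.hom m)
  rw [← map_add]
  rfl

theorem coneShiftMapF_add' {K L K' L' : CochainComplex (ModuleCat.{u} k) ℕ}
    (α α' : K ⟶ K') (β β' : L ⟶ L') (n : ℕ) :
    coneShiftMapF (α + α') (β + β') n = coneShiftMapF α β n + coneShiftMapF α' β' n := by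
  cases n with
  | zero => rfl
  | succ n =>
    ext x : 2
    rfl

theorem ccMap_add' (𝔄 : ArithDatum k G) {M M' : Rep.{u} k G} (f g : M ⟶ M') :
    ccMap 𝔄 (f + g) = ccMap 𝔄 f + ccMap 𝔄 g := by
  ext n : 1
  rw [HomologicalComplex.add_f_apply, ccMap_f, ccMap_f, ccMap_f, lvlMap_add', locMap_add']
  exact coneShiftMapF_add' _ _ _ _ n

theorem dualCxMap_add' {K K' : CochainComplex (ModuleCat.{u} k) ℕ} (g g' : K ⟶ K') :
    dualCxMap (g + g') = dualCxMap g + dualCxMap g' := by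
  ext n : 1
  match n with
  | 0 =>
    have h : ∀ ξ : Module.Dual k (K'.X 3), (dualCxMapF (g + g') 0).hom ξ
        = (dualCxMapF g 0).hom ξ + (dualCxMapF g' 0).hom ξ := by
      intro ξ
      refine LinearMap.ext fun a => ?_
      show ξ (((g + g').f 3).hom a) = ξ ((g.f 3).hom a) + ξ ((g'.f 3).hom a)
      rw [← map_add]
      rfl
    ext ξ : 2
    exact h ξ
  | 1 =>
    have h : ∀ ξ : Module.Dual k (K'.X 2), (dualCxMapF (g + g') 1).hom ξ
        = (dualCxMapF g 1).hom ξ + (dualCxMapF g' 1).hom ξ := by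
      intro ξ
      refine LinearMap.ext fun a => ?_
      show ξ (((g + g').f 2).hom a) = ξ ((g.f 2).hom a) + ξ ((g'.f 2).hom a)
      rw [← map_add]
      rfl
    ext ξ : 2
    exact h ξ
  | 2 =>
    have h : ∀ ξ : Module.Dual k (K'.X 1), (dualCxMapF (g + g') 2).hom ξ
        = (dualCxMapF g 2).hom ξ + (dualCxMapF g' 2).hom ξ := by
      intro ξ
      refine LinearMap.ext fun a => ?_
      show ξ (((g + g').f 1).hom a) = ξ ((g.f 1).hom a) + ξ ((g'.f 1).hom a)
      rw [← map_add]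
      rfl
    ext ξ : 2
    exact h ξ
  | 3 =>
    have h : ∀ ξ : Module.Dual k (K'.X 0), (dualCxMapF (g + g') 3).hom ξ
        = (dualCxMapF g 3).hom ξ + (dualCxMapF g' 3).hom ξ := by
      intro ξ
      refine LinearMap.ext fun a => ?_
      show ξ (((g + g').f 0).hom a) = ξ ((g.f 0).hom a) + ξ ((g'.f 0).hom a)
      rw [← map_add]
      rfl
    ext ξ : 2
    exact h ξ
  | n + 4 =>
    show (0 : dualX K' (n + 4) ⟶ dualX K (n + 4)) = 0 + 0
    rw [add_zero]

theorem dualCx2Map_add' {K K' : CochainComplex (ModuleCat.{u} k) ℕ} (g g' : K ⟶ K') :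
    dualCx2Map (g + g') = dualCx2Map g + dualCx2Map g' := by
  ext n : 1
  match n with
  | 0 =>
    have h : ∀ ξ : Module.Dual k (K'.X 2), (dualCx2MapF (g + g') 0).hom ξ
        = (dualCx2MapF g 0).hom ξ + (dualCx2MapF g' 0).hom ξ := by
      intro ξ
      refine LinearMap.ext fun a => ?_
      show ξ (((g + g').f 2).hom a) = ξ ((g.f 2).hom a) + ξ ((g'.f 2).hom a)
      rw [← map_add]
      rfl
    ext ξ : 2
    exact h ξ
  | 1 =>
    have h : ∀ ξ : Module.Dual k (K'.X 1), (dualCx2MapF (g + g') 1).hom ξ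
        = (dualCx2MapF g 1).hom ξ + (dualCx2MapF g' 1).hom ξ := by
      intro ξ
      refine LinearMap.ext fun a => ?_
      show ξ (((g + g').f 1).hom a) = ξ ((g.f 1).hom a) + ξ ((g'.f 1).hom a)
      rw [← map_add]
      rfl
    ext ξ : 2
    exact h ξ
  | 2 =>
    have h : ∀ ξ : Module.Dual k (K'.X 0), (dualCx2MapF (g + g') 2).hom ξ
        = (dualCx2MapF g 2).hom ξ + (dualCx2MapF g' 2).hom ξ := by
      intro ξ
      refine LinearMap.ext fun a => ?_
      show ξ (((g + g').f 0).hom a) = ξ ((g.f 0).hom a) + ξ ((g'.f 0).hom a)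
      rw [← map_add]
      rfl
    ext ξ : 2
    exact h ξ
  | n + 3 =>
    show (0 : dualX2 K' (n + 3) ⟶ dualX2 K (n + 3)) = 0 + 0
    rw [add_zero]

theorem dualSideMap_add' (𝔄 : ArithDatum k G) {M M' : Rep.{u} k G} (f g : M ⟶ M') :
    dualSideMap 𝔄 (f + g) = dualSideMap 𝔄 f + dualSideMap 𝔄 g := by
  rw [dualSideMap, dualTwistMap_add', lvlMap_add', dualCxMap_add']
  rfl

theorem lDualSideMap_add' (𝒱 : LevelSys G) (χ : G →* kˣ) {M M' : Rep.{u} k G} (f g : M ⟶ M') :
    lDualSideMap 𝒱 χ (f + g) = lDualSideMap 𝒱 χ f + lDualSideMap 𝒱 χ g := by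
  rw [lDualSideMap, dualTwistMap_add', lvlMap_add', dualCx2Map_add']
  rfl

end add

theorem additive : AdditiveStatement.{u} := by
  intro k G _ _
  refine ⟨fun 𝔄 => ⟨⟨fun {M M' f g} => ccMap_add' 𝔄 f g⟩,
    ⟨fun {M M' f g} => dualSideMap_add' 𝔄 f g⟩⟩,
    fun 𝒱 χ => ⟨⟨fun {M M' f g} => lvlMap_add' 𝒱 f g⟩,
      ⟨fun {M M' f g} => lDualSideMap_add' 𝒱 χ f g⟩⟩⟩

end Fermat.Agent.H86.CftSmall
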