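import Fermat.Agent.H78.CFT.LocalInvRows
import Fermat.Agent.H61.CFT.UnramBrauer
import Fermat.Agent.H75.Inf2Lvl
import Fermat.Agent.H57.CFT.H90Lvl
import Fermat.Agent.H81.Local.Infl

/-!
# P-CFT row 830 INV-NORM (helper86): `CyclicNormStatement`

For `F / E` finite cyclic with generator `σ` (`E` arbitrary inside `ℚ̄`), the inflation of the
standard cocycle `stdCocycle σ a`, `a ∈ Eˣ`, is a level coboundary iff `a` is a norm from `F`.

Assembly of helper61's finite-level criterion, helper75's injectivity of inflation (with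
helper57's Hilbert 90) and helper81's inflation of coboundaries.
-/

set_option autoImplicit false
set_option synthInstance.maxHeartbeats 400000

namespace Fermat.Agent.H86.CftCyclicNorm

open Fermat.Agent.H13.Cft Fermat.Agent.H78.CFT Fermat.Agent.H61.CFT groupCohomology

/-- **[INV-NORM]** -/
theorem cyclicNorm : CyclicNormStatement := by
  intro E F _ _ σ hσ a
  have hgen : IsGen σ := isGen_of_forall_mem_zpowers hσ
  have hcoc : IsMulCocycle₂ (stdCocycle σ (unitsIncl E F a)) :=
    isMulCocycle₂_stdCocycle_unitsIncl hgen a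
  have hiff := isMulCoboundary₂_stdCocycle_unitsIncl_iff hgen a
  have hnorm : a ∈ normSubgp E F ↔ ∃ y : F, Algebra.norm E y = (a : E) := by
    constructor
    · rintro ⟨b, hb⟩
      refine ⟨(b : F), ?_⟩
      have := congrArg (fun u : Eˣ => (u : E)) hb
      simpa using this
    · rintro ⟨y, hy⟩
      have hy0 : y ≠ 0 := by
        rintro rfl
        rw [Algebra.norm_zero] at hy
        exact a.ne_zero hy.symm
      exact ⟨Units.mk0 y hy0, Units.ext (by simpa using hy)⟩
  show IsLvlMulCoboundary₂E E (inflE E F (stdCocycle σ (unitsIncl E F a))) ↔ _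
  rw [← hnorm, ← hiff]
  constructor
  · intro h
    exact Fermat.Agent.H75.Inf2.inf2Lvl Fermat.Agent.H57.CFT.h90Lvl E F _ hcoc h
  · intro h
    exact Fermat.Agent.H81.Local.inflCoboundary E F _ h

end Fermat.Agent.H86.CftCyclicNorm
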