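import Fermat.Agent.H86.MWKummer
import Fermat.Agent.H49.MW.UnramOutside

/-!
# P-MW row MW-K (helper86): `KummerFinitenessStatement`, unconditional

`kummerFiniteness : Fermat.Agent.H15.MW.KummerFinitenessStatement`, from
`kummerFiniteness_of` and helper49's row MW-K0.
-/

set_option autoImplicit false

namespace Fermat.Agent.H86.MWK

/-- **Row MW-K** (unconditional). -/
theorem kummerFiniteness : Fermat.Agent.H15.MW.KummerFinitenessStatement :=
  kummerFiniteness_of fun F hF => Fermat.Agent.H49.MWK0.exists_isUnramifiedOutside F hF

end Fermat.Agent.H86.MWK
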