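import Fermat.Agent.H86.LocIdx

set_option autoImplicit false

open NumberField IsDedekindDomain

namespace Fermat.Agent.H86.LocIdx

open Fermat.Agent.H43.Cft

theorem aux_comm {G : Type*} [CommGroup G] (x y π : G) (a b : ℤ) :
    (x * π ^ a)⁻¹ * (y * π ^ b) * π ^ (a - b) = x⁻¹ * y := by
  rw [zpow_sub, mul_inv_rev]
  have h1 : (π ^ a)⁻¹ * x⁻¹ * (y * π ^ b) * (π ^ a * (π ^ b)⁻¹) =
      (x⁻¹ * y) * ((π ^ a)⁻¹ * π ^ a) * (π ^ b * (π ^ b)⁻¹) := by
    simp only [mul_assoc, mul_comm, mul_left_comm]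
  rw [h1, inv_mul_cancel, mul_inv_cancel, mul_one, mul_one]

section main

variable {K : Type*} [Field K] [NumberField K] {v : HeightOneSpectrum (𝓞 K)}

variable (K v) in
theorem exists_unif_unit : ∃ π : Kˣ, v.valuation K (π : K) = WithZero.exp (-1 : ℤ) := by
  obtain ⟨π, hπ⟩ := v.valuation_exists_uniformizer K
  have hπ0 : π ≠ 0 := by
    intro h
    rw [h, map_zero] at hπ
    exact WithZero.exp_ne_zero hπ.symm
  exact ⟨Units.mk0 π hπ0, hπ⟩

/-- the `v`-adic order (as an integer, `v x = exp (ordv x)`) -/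
noncomputable def ordv (v : HeightOneSpectrum (𝓞 K)) (x : Kˣ) : ℤ :=
  WithZero.log (v.valuation K (x : K))

theorem valuation_eq_exp_ordv (x : Kˣ) : v.valuation K (x : K) = WithZero.exp (ordv v x) := by
  rw [ordv, WithZero.exp_log]
  exact (Valuation.ne_zero_iff _).mpr x.ne_zero

theorem valuation_zpow_unif {π : Kˣ} (hπ : v.valuation K (π : K) = WithZero.exp (-1 : ℤ))
    (n : ℤ) : v.valuation K ((π ^ n : Kˣ) : K) = WithZero.exp (-n) := by
  rw [Units.val_zpow_eq_zpow_val, map_zpow₀, hπ, ← WithZero.exp_zsmul]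
  congr 1
  simp

/-- the unit part `x π^(ord x)` -/
noncomputable def unitPart (v : HeightOneSpectrum (𝓞 K)) (π : Kˣ) (x : Kˣ) : Kˣ :=
  x * π ^ (ordv v x)

theorem valuation_unitPart {π : Kˣ} (hπ : v.valuation K (π : K) = WithZero.exp (-1 : ℤ))
    (x : Kˣ) : v.valuation K ((unitPart v π x : Kˣ) : K) = 1 := by
  rw [unitPart, Units.val_mul, map_mul, valuation_zpow_unif hπ, valuation_eq_exp_ordv,
    ← WithZero.exp_add, add_neg_cancel, WithZero.exp_zero]

theorem unitPart_mem_unitFil_zero {π : Kˣ} (hπ : v.valuation K (π : K) = WithZero.exp (-1 : ℤ))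
    (x : Kˣ) : unitPart v π x ∈ unitFil K v 0 := by
  rw [mem_unitFil]
  refine ⟨valuation_unitPart hπ x, ?_⟩
  refine le_trans (Valuation.map_sub _ _ _) (max_le ?_ ?_)
  · rw [valuation_unitPart hπ x]; simp
  · simp

/-- `N = U^(M) · ⟨π ^ p⟩` -/
def subN (v : HeightOneSpectrum (𝓞 K)) (π : Kˣ) (p M : ℕ) : Subgroup Kˣ :=
  unitFil K v M ⊔ Subgroup.zpowers (π ^ p)

theorem inv_mul_mem_subN {π : Kˣ} {p M : ℕ} {x y : Kˣ}
    (hord : ((ordv v x : ℤ) : ZMod p) = ((ordv v y : ℤ) : ZMod p))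
    (hu : (unitPart v π x)⁻¹ * unitPart v π y ∈ unitFil K v M) :
    x⁻¹ * y ∈ subN v π p M := by
  obtain ⟨t, ht⟩ : ∃ t : ℤ, ordv v x - ordv v y = p * t := by
    have := (ZMod.intCast_eq_intCast_iff_dvd_sub _ _ p).mp hord.symm
    exact this
  rw [subN, Subgroup.mem_sup]
  refine ⟨_, hu, (π ^ p) ^ t, Subgroup.zpow_mem_zpowers _ t, ?_⟩
  have e : ((π ^ p) ^ t : Kˣ) = π ^ (ordv v x - ordv v y) := by
    rw [ht, zpow_mul, zpow_natCast]
  rw [e, unitPart, unitPart]
  exact aux_comm x y π _ _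

/-- The code showing that `N` has finite index. -/
theorem subN_index_ne_zero {π : Kˣ} (hπ : v.valuation K (π : K) = WithZero.exp (-1 : ℤ))
    {p : ℕ} (hp : p.Prime) (M : ℕ) : (subN v π p M).index ≠ 0 := by
  classical
  have : NeZero p := ⟨hp.ne_zero⟩
  obtain ⟨c, hc⟩ := exists_code (K := K) (v := v) 0 M
  have hfin : Finite (𝓞 K ⧸ v.asIdeal ^ M) :=
    Ideal.finiteQuotientOfFreeOfNeBot _ (pow_ne_zero M v.ne_bot)
  let f : Kˣ → ZMod p × (𝓞 K ⧸ v.asIdeal ^ M) :=
    fun x => (((ordv v x : ℤ) : ZMod p), c (unitPart v π x))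
  refine (index_le_of_code (subN v π p M) f ?_).1
  intro a b hab
  have h1 : ((ordv v a : ℤ) : ZMod p) = ((ordv v b : ℤ) : ZMod p) := congrArg Prod.fst hab
  have h2 : c (unitPart v π a) = c (unitPart v π b) := congrArg Prod.snd hab
  have h3 := hc _ (unitPart_mem_unitFil_zero hπ a) _ (unitPart_mem_unitFil_zero hπ b) h2
  rw [zero_add] at h3
  exact inv_mul_mem_subN h1 h3

/-- If `x ^ p ∈ N` then the unit part of `x` is a `p`-th root of an element of `U^(M)`. -/
theorem unitPart_pow_mem {π : Kˣ} (hπ : v.valuation K (π : K) = WithZero.exp (-1 : ℤ))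
    {p : ℕ} (hp : p.Prime) {M : ℕ} {x : Kˣ} (hx : x ^ p ∈ subN v π p M) :
    (unitPart v π x) ^ p ∈ unitFil K v M := by
  rw [subN, Subgroup.mem_sup] at hx
  obtain ⟨w, hw, z, hz, hwz⟩ := hx
  obtain ⟨t, rfl⟩ := Subgroup.mem_zpowers_iff.mp hz
  -- compare valuations
  have hV : v.valuation K ((w * (π ^ p) ^ t : Kˣ) : K) = v.valuation K ((x ^ p : Kˣ) : K) := by
    rw [hwz]
  have e1 : ((π ^ p) ^ t : Kˣ) = π ^ ((p : ℤ) * t) := by rw [zpow_mul, zpow_natCast]
  rw [Units.val_mul, map_mul, hw.1, one_mul, e1, valuation_zpow_unif hπ, Units.val_pow_eq_pow_val,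
    map_pow, valuation_eq_exp_ordv, ← WithZero.exp_nsmul, WithZero.exp_inj] at hV
  have hord : ordv v x = -t := by
    have h2 : (p : ℤ) * ordv v x = (p : ℤ) * (-t) := by
      rw [nsmul_eq_mul] at hV
      linarith
    exact mul_left_cancel₀ (by exact_mod_cast hp.ne_zero) h2
  have e2 : (unitPart v π x) ^ p = w := by
    rw [unitPart, mul_pow, ← hwz, e1, hord, ← zpow_natCast (π ^ (-t)) p, ← zpow_mul,
      mul_assoc, ← zpow_add]
    have : (p : ℤ) * t + -t * (p : ℤ) = 0 := by ring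
    rw [this, zpow_zero, mul_one]
  rw [e2]
  exact hw

/-- The bound `[{x | x ^ p ∈ N} : N] ≤ p · p · N(v)^e`. -/
theorem relIndex_subN_le {π : Kˣ} (hπ : v.valuation K (π : K) = WithZero.exp (-1 : ℤ))
    {p : ℕ} (hp : p.Prime) {ζ : K} (hζ : IsPrimitiveRoot ζ p) {e : ℕ}
    (hV : v.valuation K ((p : ℕ) : K) = WithZero.exp (-(e : ℤ))) {M : ℕ} (hM : e ≤ M) :
    (subN v π p M).relIndex ((subN v π p M).comap (powMonoidHom p : Kˣ →* Kˣ)) ≠ 0 ∧
    (subN v π p M).relIndex ((subN v π p M).comap (powMonoidHom p : Kˣ →* Kˣ)) ≤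
      p * (p * Ideal.absNorm v.asIdeal ^ e) := by
  classical
  have : NeZero p := ⟨hp.ne_zero⟩
  have hζ0 : ζ ≠ 0 := hζ.ne_zero hp.ne_zero
  set ζu : Kˣ := Units.mk0 ζ hζ0 with hζu
  have hVζ : ∀ i : ℕ, v.valuation K ((ζu ^ i : Kˣ) : K) = 1 := by
    intro i
    have h1 : v.valuation K ζ ^ p = 1 := by
      rw [← map_pow, hζ.pow_eq_one, map_one]
    have h2 : v.valuation K ζ = 1 := (pow_eq_one_iff.mp h1).resolve_right hp.ne_zero
    rw [Units.val_pow_eq_pow_val, map_pow, hζu, Units.val_mk0, h2, one_pow]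
  obtain ⟨c, hc⟩ := exists_code (K := K) (v := v) (M - e) e
  have hfin : Finite (𝓞 K ⧸ v.asIdeal ^ e) :=
    Ideal.finiteQuotientOfFreeOfNeBot _ (pow_ne_zero e v.ne_bot)
  -- the root of unity close to the unit part
  have key : ∀ x : Kˣ, ∃ i : Fin p, x ^ p ∈ subN v π p M →
      (ζu ^ (i : ℕ))⁻¹ * unitPart v π x ∈ unitFil K v (M - e) := by
    intro x
    by_cases hx : x ^ p ∈ subN v π p M
    · have h1 := unitPart_pow_mem hπ hp hx
      have h2 : v.valuation K (((unitPart v π x : Kˣ) : K) ^ p - 1) ≤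
          WithZero.exp (-(M : ℤ)) := by
        have := h1.2
        rwa [Units.val_pow_eq_pow_val] at this
      obtain ⟨i, hip, hi⟩ := exists_root_close hp hζ hV h2
      refine ⟨⟨i, hip⟩, fun _ => ?_⟩
      refine inv_mul_mem_unitFil (hVζ i) (valuation_unitPart hπ x) ?_
      rw [Units.val_pow_eq_pow_val, hζu, Units.val_mk0]
      refine hi.trans (le_of_eq ?_)
      congr 1
      have : ((M - e : ℕ) : ℤ) = (M : ℤ) - e := by
        rw [Nat.cast_sub hM]
      rw [this]; ring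
    · exact ⟨⟨0, hp.pos⟩, fun h => absurd h hx⟩
  choose i hi using key
  let f : Kˣ → ZMod p × Fin p × (𝓞 K ⧸ v.asIdeal ^ e) :=
    fun x => (((ordv v x : ℤ) : ZMod p), i x, c ((ζu ^ (i x : ℕ))⁻¹ * unitPart v π x))
  have hcode := relIndex_le_of_code ((subN v π p M).comap (powMonoidHom p : Kˣ →* Kˣ))
    (subN v π p M) f (by
      intro a ha b hb hab
      have ha' : a ^ p ∈ subN v π p M := ha
      have hb' : b ^ p ∈ subN v π p M := hb
      have h1 : ((ordv v a : ℤ) : ZMod p) = ((ordv v b : ℤ) : ZMod p) := congrArg Prod.fst hab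
      have h2 : i a = i b := congrArg (fun z => z.2.1) hab
      have h3 : c ((ζu ^ (i a : ℕ))⁻¹ * unitPart v π a) =
          c ((ζu ^ (i b : ℕ))⁻¹ * unitPart v π b) := congrArg (fun z => z.2.2) hab
      have h4 := hc _ (hi a ha') _ (hi b hb') h3
      rw [Nat.sub_add_cancel hM, h2] at h4
      refine inv_mul_mem_subN h1 ?_
      have e1 : ((ζu ^ (i b : ℕ))⁻¹ * unitPart v π a)⁻¹ * ((ζu ^ (i b : ℕ))⁻¹ * unitPart v π b) =
          (unitPart v π a)⁻¹ * unitPart v π b := by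
        rw [mul_inv_rev, inv_inv, mul_assoc, mul_inv_cancel_left]
      rw [e1] at h4
      exact h4)
  refine ⟨hcode.1, hcode.2.trans (le_of_eq ?_)⟩
  rw [Nat.card_prod, Nat.card_prod, Nat.card_zmod, Nat.card_fin]
  congr 2
  rw [← Submodule.cardQuot_apply, ← Ideal.absNorm_apply, map_pow]

/-- The bound at a fixed level `m` with `e ≤ m + 1`. -/
theorem index_level_le {p : ℕ} (hp : p.Prime) {ζ : K} (hζ : IsPrimitiveRoot ζ p) {e : ℕ}
    (hV : v.valuation K ((p : ℕ) : K) = WithZero.exp (-(e : ℤ))) {m : ℕ} (hm : e ≤ m + 1) :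
    (powSubgroup K p ⊔ principalUnits K v m).index ≠ 0 ∧
    (powSubgroup K p ⊔ principalUnits K v m).index ≤ p ^ 2 * Ideal.absNorm v.asIdeal ^ e := by
  obtain ⟨π, hπ⟩ := exists_unif_unit K v
  have hN := subN_index_ne_zero hπ hp (m + 1)
  have h1 := index_pow_sup_eq (subN v π p (m + 1)) hN p
  have h2 : (powMonoidHom p : Kˣ →* Kˣ).range ⊔ subN v π p (m + 1) =
      powSubgroup K p ⊔ principalUnits K v m := by
    rw [subN, unitFil_succ]
    apply le_antisymm
    · refine sup_le le_sup_left (sup_le le_sup_right ?_)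
      refine le_trans ?_ le_sup_left
      rw [Subgroup.zpowers_le]
      exact ⟨π, rfl⟩
    · exact sup_le le_sup_left (le_trans le_sup_left le_sup_right)
  rw [h2] at h1
  have h3 := relIndex_subN_le hπ hp hζ hV hm
  rw [h1]
  refine ⟨h3.1, h3.2.trans (le_of_eq ?_)⟩
  ring

theorem principalUnits_antitone : Antitone (principalUnits K v) := by
  intro a b hab
  rw [← unitFil_succ, ← unitFil_succ]
  exact unitFil_antitone (Nat.succ_le_succ hab)

/-- The bound at every level. -/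
theorem index_level_le' {p : ℕ} (hp : p.Prime) {ζ : K} (hζ : IsPrimitiveRoot ζ p) {e : ℕ}
    (hV : v.valuation K ((p : ℕ) : K) = WithZero.exp (-(e : ℤ))) (m : ℕ) :
    (powSubgroup K p ⊔ principalUnits K v m).index ≠ 0 ∧
    (powSubgroup K p ⊔ principalUnits K v m).index ≤ p ^ 2 * Ideal.absNorm v.asIdeal ^ e := by
  have h := index_level_le hp hζ hV (m := max m e) (by omega)
  have hle : powSubgroup K p ⊔ principalUnits K v (max m e) ≤
      powSubgroup K p ⊔ principalUnits K v m :=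
    sup_le_sup_left (principalUnits_antitone (le_max_left m e)) _
  have hdvd := Subgroup.index_dvd_of_le hle
  refine ⟨fun h0 => h.1 ?_, (Nat.le_of_dvd (Nat.pos_of_ne_zero h.1) hdvd).trans h.2⟩
  rw [h0] at hdvd
  exact zero_dvd_iff.mp hdvd

end main

/-- **Row 2I-LOCIDX.** -/
theorem localPowIndex.{u} : Fermat.Agent.H25.CFT.LocalPowIndexStatement.{u} := by
  intro K _ _ p hp ζ hζ v e hV
  have h := index_iInf_of_antitone (fun m => powSubgroup K p ⊔ principalUnits K v m)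
    (fun a b hab => sup_le_sup_left (principalUnits_antitone hab) _)
    (p ^ 2 * Ideal.absNorm v.asIdeal ^ e) (fun m => index_level_le' hp hζ hV m)
  exact h

end Fermat.Agent.H86.LocIdx
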