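/-
P-SS row 547 (SS-TMB-NONSPECIAL), helper86.

Sharp threshold in Riemann's theorem on helper58's adelic Riemann theorem, without canonical
divisors: `H¹(D) = 0` and `ℓ(D) = deg D + 1 - g` as soon as `deg D ≥ 2 g - 1`.

Proof (the `x ω` trick): if `H¹(D) ≠ 0` pick a nonzero functional `ω` on repartitions vanishing
on `A(D) + F`.  For a place `v₀` and `B := D + [v₀]` the map `x ↦ (α ↦ ω (x α))` is an injective
`K`-linear map from `L(B)` to the functionals vanishing on `A(D - B) + F`, a space of dimension
`dim H¹(D - B) = g`.  Riemann's inequality `ℓ(B) ≥ deg D + 2 - g` gives `deg D ≤ 2 g - 2`.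
-/
import Fermat.Agent.H55.Zeta.Interfaces

set_option autoImplicit false

noncomputable section

open AlgebraicCurve

namespace Fermat.Agent.H86

variable {K F : Type*} [Field K] [Field F] [Algebra K F]

/-- The `K`-bilinear map `(x, α) ↦ ω (x • α)`. -/
def nsPair (ω : ↥(repartitions K F) →ₗ[K] K) : F →ₗ[K] ↥(repartitions K F) →ₗ[K] K :=
  LinearMap.mk₂ K (fun x α => ω (x • α))
    (fun x y α => by rw [add_smul, map_add])
    (fun c x α => by rw [smul_assoc, map_smul])
    (fun x α β => by rw [smul_add, map_add])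
    (fun c x α => by rw [smul_comm, map_smul])

@[simp]
theorem nsPair_apply (ω : ↥(repartitions K F) →ₗ[K] K) (x : F) (α : ↥(repartitions K F)) :
    nsPair ω x α = ω (x • α) := rfl

theorem ns_coe_smul_apply (x : F) (α : ↥(repartitions K F)) (v : Place K F) :
    ((x • α : ↥(repartitions K F)) : Place K F → F) v = x * (α : Place K F → F) v := rfl

theorem ns_smul_mem_repartitionsOf {B E : Divisor K F} {x : F} (hx : x ∈ riemannRochSpace B)
    {α : ↥(repartitions K F)} (hα : α ∈ repartitionsOf E) :
    x • α ∈ repartitionsOf (B + E) := by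
  intro v
  rw [ns_coe_smul_apply, map_mul, Finsupp.add_apply, WithZero.exp_add]
  exact mul_le_mul' (hx v) (hα v)

theorem ns_smul_mem_principal (x : F) {α : ↥(repartitions K F)}
    (hα : α ∈ principalRepartitions K F) : x • α ∈ principalRepartitions K F := by
  rw [mem_principalRepartitions_iff] at hα ⊢
  obtain ⟨f, hf⟩ := hα
  refine ⟨x * f, ?_⟩
  funext v
  rw [ns_coe_smul_apply, hf]

/-- The functionals `nsPair ω x`, `x ∈ L(B)`, vanish on `A(D - B) + F` when `ω` vanishes on
`A(D) + F`. -/
theorem ns_pair_mem_dualAnnihilator {D B : Divisor K F} {ω : ↥(repartitions K F) →ₗ[K] K}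
    (hω : repartitionsOf D ⊔ principalRepartitions K F ≤ LinearMap.ker ω)
    {x : F} (hx : x ∈ riemannRochSpace B) :
    nsPair ω x ∈ (repartitionsOf (D - B) ⊔ principalRepartitions K F).dualAnnihilator := by
  rw [Submodule.mem_dualAnnihilator]
  intro α hα
  rw [nsPair_apply]
  have hmem : x • α ∈ repartitionsOf D ⊔ principalRepartitions K F := by
    obtain ⟨β, hβ, γ, hγ, rfl⟩ := Submodule.mem_sup.mp hα
    rw [smul_add]
    refine Submodule.add_mem_sup ?_ (ns_smul_mem_principal x hγ)
    have := ns_smul_mem_repartitionsOf hx hβ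
    rwa [add_sub_cancel] at this
  exact LinearMap.mem_ker.mp (hω hmem)

/-- The injective map `L(B) → (A(D - B) + F)^⊥`. -/
def nsMap {D B : Divisor K F} {ω : ↥(repartitions K F) →ₗ[K] K}
    (hω : repartitionsOf D ⊔ principalRepartitions K F ≤ LinearMap.ker ω) :
    ↥(riemannRochSpace B) →ₗ[K]
      ↥(repartitionsOf (D - B) ⊔ principalRepartitions K F).dualAnnihilator :=
  LinearMap.codRestrict _ ((nsPair ω).comp (riemannRochSpace B).subtype)
    (fun x => ns_pair_mem_dualAnnihilator hω x.2)

theorem nsMap_injective {D B : Divisor K F} {ω : ↥(repartitions K F) →ₗ[K] K}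
    (hω : repartitionsOf D ⊔ principalRepartitions K F ≤ LinearMap.ker ω) (hω0 : ω ≠ 0) :
    Function.Injective (nsMap (B := B) hω) := by
  refine (injective_iff_map_eq_zero _).mpr ?_
  intro x hx
  by_contra hx0
  have hx0' : (x : F) ≠ 0 := fun h => hx0 (Subtype.ext h)
  apply hω0
  ext α
  have h1 : nsPair ω (x : F) ((x : F)⁻¹ • α) = 0 := by
    have := congrArg (fun f => (f : ↥(repartitions K F) →ₗ[K] K) ((x : F)⁻¹ • α))
      (congrArg Subtype.val hx)
    simpa [nsMap] using this
  rw [nsPair_apply, smul_smul, mul_inv_cancel₀ hx0', one_smul] at h1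
  simpa using h1

/-- `dim H¹(-[v₀]) = g`. -/
theorem ns_finrank_H1_neg_single (h : Fermat.Agent.H58.RRHyp K F) (v₀ : Place K F) :
    Module.finrank K (H1 (-(Finsupp.single v₀ (1 : ℤ)) : Divisor K F)) = genusFF K F := by
  have := h.principal
  have hdeg : Divisor.degree (-(Finsupp.single v₀ (1 : ℤ)) : Divisor K F) = -1 := by
    rw [map_neg, Divisor.degree_single, h.deg_one v₀]; simp
  have h1 := h.finrank_H1_eq (-(Finsupp.single v₀ (1 : ℤ)) : Divisor K F)
  rw [Fermat.Agent.H58.rr_space_eq_bot_of_degree_neg (by rw [hdeg]; norm_num), finrank_bot,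
    hdeg] at h1
  have : (Module.finrank K (H1 (-(Finsupp.single v₀ (1 : ℤ)) : Divisor K F)) : ℤ) =
      (genusFF K F : ℤ) := by
    rw [h1]; push_cast; ring
  exact_mod_cast this

/-- **`H¹(D) = 0` for `deg D ≥ 2 g - 1`.** -/
theorem ns_finrank_H1_eq_zero (h : Fermat.Agent.H58.RRHyp K F) (D : Divisor K F)
    (hD : 2 * (genusFF K F : ℤ) - 1 ≤ Divisor.degree D) :
    Module.finrank K (H1 D) = 0 := by
  by_contra hne
  have := h.finite_H1 D
  have hpos : 0 < Module.finrank K (H1 D) := Nat.pos_of_ne_zero hne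
  have : Nontrivial (H1 D) := Module.finrank_pos_iff.mp hpos
  obtain ⟨c, hc⟩ := exists_ne (0 : H1 D)
  obtain ⟨φ, hφ⟩ : ∃ φ : Module.Dual K (H1 D), φ c ≠ 0 := by
    by_contra hcon
    exact hc ((Module.forall_dual_apply_eq_zero_iff K c).mp
      (fun ψ => not_not.mp (fun hψ => hcon ⟨ψ, hψ⟩)))
  set S := repartitionsOf D ⊔ principalRepartitions K F with hS
  set ω : ↥(repartitions K F) →ₗ[K] K := φ.comp S.mkQ with hωdef
  have hω : S ≤ LinearMap.ker ω := by
    intro α hα
    rw [LinearMap.mem_ker, hωdef, LinearMap.comp_apply, Submodule.mkQ_apply,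
      (Submodule.Quotient.mk_eq_zero S).mpr hα, map_zero]
  have hω0 : ω ≠ 0 := by
    intro h0
    obtain ⟨α, rfl⟩ := Submodule.Quotient.mk_surjective S c
    apply hφ
    have := congrArg (fun f => f α) h0
    simpa [hωdef] using this
  obtain ⟨v₀⟩ := h.exists_place
  set B : Divisor K F := D + Finsupp.single v₀ (1 : ℤ) with hB
  have hDB : D - B = -(Finsupp.single v₀ (1 : ℤ)) := by rw [hB]; abel
  -- dimension count
  have hfin1 : Module.Finite K (H1 (D - B)) := h.finite_H1 (D - B)
  have hle : Module.finrank K ↥(riemannRochSpace B) ≤ Module.finrank K (H1 (D - B)) := by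
    have e := Submodule.dualQuotEquivDualAnnihilator
      (repartitionsOf (D - B) ⊔ principalRepartitions K F)
    have : Module.Finite K
        ↥(repartitionsOf (D - B) ⊔ principalRepartitions K F).dualAnnihilator :=
      Module.Finite.equiv e
    calc Module.finrank K ↥(riemannRochSpace B)
        ≤ Module.finrank K
            ↥(repartitionsOf (D - B) ⊔ principalRepartitions K F).dualAnnihilator :=
          LinearMap.finrank_le_finrank_of_injective (nsMap_injective (B := B) hω hω0)
      _ = Module.finrank K (Module.Dual K (H1 (D - B))) := e.symm.finrank_eq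
      _ = Module.finrank K (H1 (D - B)) := Subspace.dual_finrank_eq
  have hg : Module.finrank K (H1 (D - B)) = genusFF K F := by
    rw [hDB]; exact ns_finrank_H1_neg_single h v₀
  have hR := h.riemann_inequality B
  have hdegB : Divisor.degree B = Divisor.degree D + 1 := by
    rw [hB, Fermat.Agent.H58.rr_degree_add_single h.deg_one]
  rw [hg] at hle
  have hle' : (Module.finrank K ↥(riemannRochSpace B) : ℤ) ≤ (genusFF K F : ℤ) := by
    exact_mod_cast hle
  omega

/-- **Row SS-TMB-NONSPECIAL**: `ℓ(D) = deg D + 1 - g` for `deg D ≥ 2 g - 1`. -/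
theorem nonSpecial : Fermat.Agent.H55.Zeta.NonSpecialStatement := by
  intro K F _ _ _ h D hD
  have h1 := (h.riemann D).2
  rw [ns_finrank_H1_eq_zero h D hD] at h1
  simpa using h1

end Fermat.Agent.H86

end
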