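import Mathlib

/-!
# An abstract lifting lemma for homomorphisms to `ℤ/m` (helper86, P-S16, block LB-LIFT)

`G` a finitely generated group, `Par`, `Ell ⊆ G`, the elements of `Ell` of finite order.
Let `r` be the dimension of the space of homomorphisms `G → ℂ` killing `Par`.  If for every
prime `ℓ` there are at most `ℓ ^ r` homomorphisms `G → ℤ/ℓ` killing `Par ∪ Ell`, then every
homomorphism `G → ℤ/m` killing `Par ∪ Ell` lifts to a homomorphism `G → ℤ` killing `Par`.

Proof: `A := G^ab / ⟨Par⟩ ≃ ℤ^n × D` with `D` finite (structure theorem), `n = r`; the classes of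
`Ell` generate a subgroup `E ≤ D`; if `E ≠ D` a nonzero homomorphism `D/E → ℤ/ℓ` produces more
than `ℓ ^ n` homomorphisms `A → ℤ/ℓ` killing `E`.
-/

set_option autoImplicit false

namespace Fermat.Agent.H86

open scoped DirectSum

section Basic

/-- A nontrivial finite abelian group has a nonzero homomorphism to some `ℤ/ℓ`, `ℓ` prime. -/
theorem exists_prime_hom_ne_zero (Q : Type*) [AddCommGroup Q] [Finite Q] [Nontrivial Q] :
    ∃ (ℓ : ℕ) (_ : ℓ.Prime) (χ : Q →+ ZMod ℓ), χ ≠ 0 := by
  classical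
  obtain ⟨ι, hι, n, hn, ⟨e⟩⟩ := AddCommGroup.equiv_directSum_zmod_of_finite' Q
  have hne : Nonempty ι := by
    by_contra h
    rw [not_nonempty_iff] at h
    have hsub : Subsingleton Q := by
      refine ⟨fun a b => ?_⟩
      apply e.injective
      apply DFinsupp.ext
      intro i
      exact (h.false i).elim
    exact not_subsingleton Q hsub
  obtain ⟨i⟩ := hne
  have hni : n i ≠ 1 := (hn i).ne'
  set ℓ := (n i).minFac with hℓ
  have hℓp : ℓ.Prime := Nat.minFac_prime hni
  haveI : Fact ℓ.Prime := ⟨hℓp⟩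
  let c : ZMod (n i) →+ ZMod ℓ := (ZMod.castHom (Nat.minFac_dvd (n i)) (ZMod ℓ)).toAddMonoidHom
  let pr : (⨁ j : ι, ZMod (n j)) →+ ZMod (n i) := DFinsupp.evalAddMonoidHom i
  refine ⟨ℓ, hℓp, c.comp (pr.comp e.toAddMonoidHom), ?_⟩
  intro h0
  have h1 := DFunLike.congr_fun h0 (e.symm (DirectSum.of (fun j => ZMod (n j)) i 1))
  simp only [AddMonoidHom.comp_apply, AddEquiv.coe_toAddMonoidHom, AddEquiv.apply_symm_apply,
    AddMonoidHom.zero_apply] at h1
  have h2 : pr (DirectSum.of (fun j => ZMod (n j)) i 1) = 1 := by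
    change (DirectSum.of (fun j => ZMod (n j)) i 1) i = 1
    exact DirectSum.of_eq_same i 1
  rw [h2] at h1
  have h3 : c 1 = 1 := map_one (ZMod.castHom (Nat.minFac_dvd (n i)) (ZMod ℓ))
  rw [h3] at h1
  exact one_ne_zero h1

/-- Homomorphisms from `Fin n →₀ ℤ` to `ℤ/m` lift to `ℤ`. -/
theorem exists_lift_finsupp (n m : ℕ) (f : (Fin n →₀ ℤ) →+ ZMod m) :
    ∃ g : (Fin n →₀ ℤ) →+ ℤ, ∀ x, ((g x : ℤ) : ZMod m) = f x := by
  have hw : ∀ i : Fin n, ∃ w : ℤ, (w : ZMod m) = f (Finsupp.single i 1) := fun i =>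
    ZMod.intCast_surjective _
  choose w hw using hw
  let g : (Fin n →₀ ℤ) →+ ℤ := Finsupp.liftAddHom fun i => AddMonoidHom.mulLeft (w i)
  refine ⟨g, fun x => ?_⟩
  have key : (Int.castAddHom (ZMod m)).comp g = f := by
    refine Finsupp.addHom_ext fun i k => ?_
    have h1 : g (Finsupp.single i k) = w i * k := by
      simp [g]
    rw [AddMonoidHom.comp_apply, h1]
    have h2 : (Finsupp.single i k : Fin n →₀ ℤ) = k • Finsupp.single i 1 := by
      rw [Finsupp.smul_single, smul_eq_mul, mul_one]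
    rw [h2, map_zsmul, ← hw i]
    simp [mul_comm]
  exact DFunLike.congr_fun key x

/-- A homomorphism on `(Fin n →₀ ℤ) × D` is determined by its values on the `(single i 1, 0)`
and the `(0, d)`. -/
theorem prod_hom_ext {n : ℕ} {D M : Type*} [AddCommGroup D] [AddCommGroup M]
    {f g : ((Fin n →₀ ℤ) × D) →+ M}
    (h1 : ∀ i, f (Finsupp.single i 1, 0) = g (Finsupp.single i 1, 0))
    (h2 : ∀ d, f (0, d) = g (0, d)) : f = g := by
  have hF : f.comp (AddMonoidHom.inl _ _) = g.comp (AddMonoidHom.inl _ _) := by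
    refine Finsupp.addHom_ext fun i k => ?_
    have h3 : (Finsupp.single i k : Fin n →₀ ℤ) = k • Finsupp.single i 1 := by
      rw [Finsupp.smul_single, smul_eq_mul, mul_one]
    simp only [AddMonoidHom.comp_apply, AddMonoidHom.inl_apply]
    have h4 : ((k • Finsupp.single i 1 : Fin n →₀ ℤ), (0 : D))
        = k • ((Finsupp.single i 1 : Fin n →₀ ℤ), (0 : D)) := by
      simp
    rw [h3, h4, map_zsmul, map_zsmul, h1]
  refine AddMonoidHom.ext fun x => ?_
  obtain ⟨a, d⟩ := x
  have h5 : ((a, d) : (Fin n →₀ ℤ) × D) = (a, 0) + (0, d) := by simp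
  rw [h5, map_add, map_add, h2]
  congr 1
  exact DFunLike.congr_fun hF a

end Basic

section ParQuot

variable {G : Type*} [Group G] (Par : Set G)

/-- The subgroup of `Additive G^ab` generated by the classes of `Par`. -/
def parSubgroup : AddSubgroup (Additive (Abelianization G)) :=
  AddSubgroup.closure ((fun g => Additive.ofMul (Abelianization.of g)) '' Par)

/-- The abelian group `G^ab / ⟨Par⟩`, written additively. -/
abbrev ParQuot : Type _ := Additive (Abelianization G) ⧸ parSubgroup Par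

/-- The canonical map `G → G^ab / ⟨Par⟩`. -/
def parMk : Additive G →+ ParQuot Par :=
  (QuotientAddGroup.mk' (parSubgroup Par)).comp (MonoidHom.toAdditive Abelianization.of)

theorem parMk_apply (g : G) :
    parMk Par (Additive.ofMul g)
      = QuotientAddGroup.mk' (parSubgroup Par) (Additive.ofMul (Abelianization.of g)) := rfl

theorem parMk_surjective : Function.Surjective (parMk Par) := by
  intro x
  obtain ⟨y, rfl⟩ := QuotientAddGroup.mk'_surjective (parSubgroup Par) x
  obtain ⟨g, hg⟩ := QuotientGroup.mk_surjective (s := commutator G) (Additive.toMul y)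
  refine ⟨Additive.ofMul g, ?_⟩
  rw [parMk_apply]
  exact congrArg (fun a => QuotientAddGroup.mk' (parSubgroup Par) (Additive.ofMul a)) hg

theorem parMk_of_mem {g : G} (hg : g ∈ Par) : parMk Par (Additive.ofMul g) = 0 := by
  rw [parMk_apply]
  exact (QuotientAddGroup.eq_zero_iff _).mpr (AddSubgroup.subset_closure ⟨g, hg, rfl⟩)

variable {Par}

/-- The universal property of `G^ab / ⟨Par⟩`. -/
def parLift {M : Type*} [AddCommGroup M] (φ : Additive G →+ M)
    (h : ∀ g ∈ Par, φ (Additive.ofMul g) = 0) : ParQuot Par →+ M :=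
  QuotientAddGroup.lift (parSubgroup Par)
    (MonoidHom.toAdditiveLeft (Abelianization.lift (AddMonoidHom.toMultiplicativeRight φ)))
    (by
      unfold parSubgroup
      rw [AddSubgroup.closure_le]
      rintro _ ⟨g, hg, rfl⟩
      rw [SetLike.mem_coe, AddMonoidHom.mem_ker]
      change Multiplicative.toAdd
        (Abelianization.lift (AddMonoidHom.toMultiplicativeRight φ) (Abelianization.of g)) = 0
      rw [Abelianization.lift_apply_of]
      exact h g hg)

theorem parLift_parMk {M : Type*} [AddCommGroup M] (φ : Additive G →+ M)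
    (h : ∀ g ∈ Par, φ (Additive.ofMul g) = 0) (x : Additive G) :
    parLift φ h (parMk Par x) = φ x := by
  obtain ⟨g, rfl⟩ : ∃ g : G, Additive.ofMul g = x := ⟨Additive.toMul x, rfl⟩
  rw [parMk_apply]
  change Multiplicative.toAdd
    (Abelianization.lift (AddMonoidHom.toMultiplicativeRight φ) (Abelianization.of g)) = _
  rw [Abelianization.lift_apply_of]
  rfl

theorem parQuot_hom_ext {M : Type*} [AddCommGroup M] {f g : ParQuot Par →+ M}
    (h : f.comp (parMk Par) = g.comp (parMk Par)) : f = g := by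
  refine AddMonoidHom.ext fun x => ?_
  obtain ⟨y, rfl⟩ := parMk_surjective Par x
  exact DFunLike.congr_fun h y

instance parQuot_fg [Group.FG G] : AddGroup.FG (ParQuot Par) :=
  AddGroup.fg_of_surjective (f := parMk Par) (parMk_surjective Par)

end ParQuot

section Core

variable (n : ℕ) (D : Type*) [AddCommGroup D]

/-- The homomorphism `(Fin n →₀ ℤ) → M` with prescribed values on the basis. -/
noncomputable def finsuppHom {M : Type*} [AddCommGroup M] (c : Fin n → M) : (Fin n →₀ ℤ) →+ M :=
  Finsupp.liftAddHom fun i => zmultiplesHom M (c i)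

theorem finsuppHom_single {M : Type*} [AddCommGroup M] (c : Fin n → M) (i : Fin n) :
    finsuppHom n c (Finsupp.single i 1) = c i := by
  simp [finsuppHom]

variable {n D}

/-- Homomorphisms on `(Fin n →₀ ℤ) × D` into a finite group form a finite set. -/
theorem finite_prod_hom [Finite D] (M : Type*) [AddCommGroup M] [Finite M] :
    Finite (((Fin n →₀ ℤ) × D) →+ M) := by
  let F : (((Fin n →₀ ℤ) × D) →+ M) → (Fin n → M) × (D → M) :=
    fun f => (fun i => f (Finsupp.single i 1, 0), fun d => f (0, d))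
  have hF : Function.Injective F := by
    intro f g hfg
    have h1 := congrArg Prod.fst hfg
    have h2 := congrArg Prod.snd hfg
    exact prod_hom_ext (fun i => congrFun h1 i) (fun d => congrFun h2 d)
  exact Finite.of_injective F hF

/-- **Core counting argument.** If for every prime `ℓ` there are at most `ℓ ^ n` homomorphisms
`(Fin n →₀ ℤ) × D → ℤ/ℓ` killing `0 × E`, then every homomorphism to `ℤ/m` killing `0 × E`
kills `0 × D`. -/
theorem core_kills_torsion [Finite D] (E : Set D)
    (hcard : ∀ ℓ : ℕ, ℓ.Prime →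
      Nat.card {f : ((Fin n →₀ ℤ) × D) →+ ZMod ℓ // ∀ d ∈ E, f (0, d) = 0} ≤ ℓ ^ n)
    {M : Type*} [AddCommGroup M] (f : ((Fin n →₀ ℤ) × D) →+ M) (hf : ∀ d ∈ E, f (0, d) = 0)
    (d : D) : f (0, d) = 0 := by
  classical
  by_contra hd
  set ED : AddSubgroup D := AddSubgroup.closure E with hED
  have hker : ED ≤ (f.comp (AddMonoidHom.inr (Fin n →₀ ℤ) D)).ker := by
    rw [hED, AddSubgroup.closure_le]
    intro x hx
    rw [SetLike.mem_coe, AddMonoidHom.mem_ker]
    exact hf x hx
  have hdED : d ∉ ED := fun h => hd (by simpa using hker h)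
  haveI : Nontrivial (D ⧸ ED) := by
    refine ⟨⟨QuotientAddGroup.mk' ED d, 0, ?_⟩⟩
    intro h
    exact hdED ((QuotientAddGroup.eq_zero_iff d).mp h)
  obtain ⟨ℓ, hℓ, χ, hχ⟩ := exists_prime_hom_ne_zero (D ⧸ ED)
  haveI : Fact ℓ.Prime := ⟨hℓ⟩
  obtain ⟨q, hq⟩ : ∃ q : D ⧸ ED, χ q ≠ 0 := by
    by_contra h
    exact hχ (AddMonoidHom.ext fun q => by
      by_contra hq
      exact h ⟨q, hq⟩)
  obtain ⟨d₁, rfl⟩ := QuotientAddGroup.mk'_surjective ED q
  -- the `ℓ ^ n + 1` homomorphisms
  let extra : ((Fin n →₀ ℤ) × D) →+ ZMod ℓ :=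
    χ.comp ((QuotientAddGroup.mk' ED).comp (AddMonoidHom.snd (Fin n →₀ ℤ) D))
  have hextra_apply : ∀ (a : Fin n →₀ ℤ) (x : D),
      extra (a, x) = χ (QuotientAddGroup.mk' ED x) := fun a x => rfl
  have hextra : ∀ x ∈ E, extra (0, x) = 0 := by
    intro x hx
    have : QuotientAddGroup.mk' ED x = 0 :=
      (QuotientAddGroup.eq_zero_iff x).mpr (AddSubgroup.subset_closure hx)
    rw [hextra_apply, this, map_zero]
  have hsome_apply : ∀ (c : Fin n → ZMod ℓ) (a : Fin n →₀ ℤ) (x : D),
      ((finsuppHom n c).comp (AddMonoidHom.fst (Fin n →₀ ℤ) D)) (a, x) = finsuppHom n c a :=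
    fun c a x => rfl
  let J : Option (Fin n → ZMod ℓ) →
      {f : ((Fin n →₀ ℤ) × D) →+ ZMod ℓ // ∀ d ∈ E, f (0, d) = 0} := fun o =>
    match o with
    | none => ⟨extra, hextra⟩
    | some c => ⟨(finsuppHom n c).comp (AddMonoidHom.fst (Fin n →₀ ℤ) D), by
        intro x _
        rw [hsome_apply, map_zero]⟩
  have hJ : Function.Injective J := by
    intro a b hab
    have hval : ∀ x, (J a).1 x = (J b).1 x := fun x => by rw [hab]
    cases a with
    | none =>
      cases b with
      | none => rfl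
      | some c =>
        exfalso
        have h1 : extra (0, d₁)
            = ((finsuppHom n c).comp (AddMonoidHom.fst (Fin n →₀ ℤ) D)) (0, d₁) := hval (0, d₁)
        rw [hextra_apply, hsome_apply, map_zero] at h1
        exact hq h1
    | some c =>
      cases b with
      | none =>
        exfalso
        have h1 : ((finsuppHom n c).comp (AddMonoidHom.fst (Fin n →₀ ℤ) D)) (0, d₁)
            = extra (0, d₁) := hval (0, d₁)
        rw [hextra_apply, hsome_apply, map_zero] at h1
        exact hq h1.symm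
      | some c' =>
        congr 1
        funext i
        have h1 : ((finsuppHom n c).comp (AddMonoidHom.fst (Fin n →₀ ℤ) D))
              (Finsupp.single i 1, 0)
            = ((finsuppHom n c').comp (AddMonoidHom.fst (Fin n →₀ ℤ) D))
              (Finsupp.single i 1, 0) := hval (Finsupp.single i 1, 0)
        rw [hsome_apply, hsome_apply, finsuppHom_single, finsuppHom_single] at h1
        exact h1
  haveI : Finite (((Fin n →₀ ℤ) × D) →+ ZMod ℓ) := finite_prod_hom (ZMod ℓ)
  have h1 := Nat.card_le_card_of_injective J hJ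
  have h2 : Nat.card (Option (Fin n → ZMod ℓ)) = ℓ ^ n + 1 := by
    rw [Nat.card_eq_fintype_card, Fintype.card_option, Fintype.card_fun, ZMod.card,
      Fintype.card_fin]
  have h3 := hcard ℓ hℓ
  omega

end Core

section Main

variable {G : Type*} [Group G] [Group.FG G]

/-- **Abstract lifting lemma.**  `G` finitely generated, `Ell` a set of elements of finite order,
`V` the space of homomorphisms `G → ℂ` killing `Par`.  If for every prime `ℓ` the number of
homomorphisms `G → ℤ/ℓ` killing `Par ∪ Ell` is at most `ℓ ^ dim V`, then every homomorphism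
`G → ℤ/m` killing `Par ∪ Ell` lifts to a homomorphism `G → ℤ` killing `Par`. -/
theorem exists_int_lift_of_card_le (Par Ell : Set G)
    (hEll : ∀ g ∈ Ell, IsOfFinOrder g)
    (V : Submodule ℂ (Additive G →+ ℂ))
    (hV : ∀ φ : Additive G →+ ℂ, φ ∈ V ↔ ∀ g ∈ Par, φ (Additive.ofMul g) = 0)
    (hcard : ∀ ℓ : ℕ, ℓ.Prime →
      Nat.card {φ : Additive G →+ ZMod ℓ //
          (∀ g ∈ Par, φ (Additive.ofMul g) = 0) ∧ ∀ g ∈ Ell, φ (Additive.ofMul g) = 0}
        ≤ ℓ ^ Module.finrank ℂ V)
    (m : ℕ) (φ : Additive G →+ ZMod m)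
    (hP : ∀ g ∈ Par, φ (Additive.ofMul g) = 0) (hE : ∀ g ∈ Ell, φ (Additive.ofMul g) = 0) :
    ∃ ψ : Additive G →+ ℤ, (∀ g ∈ Par, ψ (Additive.ofMul g) = 0) ∧
      ∀ g : G, ((ψ (Additive.ofMul g) : ℤ) : ZMod m) = φ (Additive.ofMul g) := by
  classical
  obtain ⟨n, I, hI, p, hp, e, ⟨eq⟩⟩ :=
    AddCommGroup.equiv_free_prod_directSum_zmod (ParQuot Par)
  haveI : ∀ i, NeZero (p i ^ e i) := fun i => ⟨pow_ne_zero _ (hp i).ne_zero⟩
  haveI hDfin : Finite (⨁ i : I, ZMod (p i ^ e i)) :=
    Finite.of_equiv (∀ i : I, ZMod (p i ^ e i)) DFinsupp.equivFunOnFintype.symm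
  -- the map `G → ℤ^n × D`
  let μ : Additive G →+ (Fin n →₀ ℤ) × (⨁ i : I, ZMod (p i ^ e i)) :=
    eq.toAddMonoidHom.comp (parMk Par)
  have hμ_apply : ∀ x, μ x = eq (parMk Par x) := fun x => rfl
  have hμ_surj : Function.Surjective μ := eq.surjective.comp (parMk_surjective Par)
  have hμ_par : ∀ g ∈ Par, μ (Additive.ofMul g) = 0 := by
    intro g hg
    rw [hμ_apply, parMk_of_mem Par hg, map_zero]
  -- factorisation through `μ`
  have factor : ∀ {M : Type} [AddCommGroup M] (χ : Additive G →+ M),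
      (∀ g ∈ Par, χ (Additive.ofMul g) = 0) →
      ∃ f : ((Fin n →₀ ℤ) × (⨁ i : I, ZMod (p i ^ e i))) →+ M, ∀ x, f (μ x) = χ x := by
    intro M _ χ hχ
    refine ⟨(parLift χ hχ).comp eq.symm.toAddMonoidHom, fun x => ?_⟩
    rw [hμ_apply, AddMonoidHom.comp_apply, AddEquiv.coe_toAddMonoidHom,
      AddEquiv.symm_apply_apply, parLift_parMk]
  -- elements of `Ell` have trivial free component
  have hEll_fst : ∀ g ∈ Ell, (μ (Additive.ofMul g)).1 = 0 := by
    intro g hg
    obtain ⟨k, hk, hgk⟩ := (isOfFinOrder_iff_pow_eq_one).mp (hEll g hg)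
    have h1 : k • μ (Additive.ofMul g) = 0 := by
      rw [← map_nsmul, ← ofMul_pow, hgk, ofMul_one, map_zero]
    have h2 : k • (μ (Additive.ofMul g)).1 = 0 := by
      have := congrArg Prod.fst h1
      simpa using this
    exact (smul_eq_zero.mp h2).resolve_left hk.ne'
  let E : Set (⨁ i : I, ZMod (p i ^ e i)) := {d | ∃ g ∈ Ell, (μ (Additive.ofMul g)).2 = d}
  have hEll_eq : ∀ g ∈ Ell, μ (Additive.ofMul g) = (0, (μ (Additive.ofMul g)).2) := by
    intro g hg
    exact Prod.ext (hEll_fst g hg) rfl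
  -- `dim V = n`
  have hfin : Module.finrank ℂ V = n := by
    have hgi : ∀ i : Fin n, ∃ x : Additive G, μ x = (Finsupp.single i 1, 0) := fun i =>
      hμ_surj _
    choose gi hgi using hgi
    let Ψ : V →ₗ[ℂ] (Fin n → ℂ) :=
      { toFun := fun χ i => (χ : Additive G →+ ℂ) (gi i)
        map_add' := fun a b => by
          funext i
          rfl
        map_smul' := fun c a => by
          funext i
          rfl }
    have hΨ_apply : ∀ (χ : V) (i : Fin n), Ψ χ i = (χ : Additive G →+ ℂ) (gi i) :=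
      fun χ i => rfl
    have hinj : Function.Injective Ψ := by
      rw [injective_iff_map_eq_zero]
      intro χ hχ
      obtain ⟨f, hf⟩ := factor (χ : Additive G →+ ℂ) ((hV _).mp χ.2)
      have hf0 : f = 0 := by
        refine prod_hom_ext (fun i => ?_) (fun d => ?_)
        · rw [← hgi i, hf, AddMonoidHom.zero_apply]
          have := congrFun hχ i
          rw [hΨ_apply] at this
          exact this
        · rw [AddMonoidHom.zero_apply]
          have hd : IsOfFinAddOrder d := isOfFinAddOrder_of_finite d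
          obtain ⟨k, hk, hdk⟩ := isOfFinAddOrder_iff_nsmul_eq_zero.mp hd
          have h1 : k • f (0, d) = 0 := by
            rw [← map_nsmul]
            have : k • ((0 : Fin n →₀ ℤ), d) = 0 := by
              rw [Prod.smul_mk, smul_zero, hdk]
              rfl
            rw [this, map_zero]
          exact (smul_eq_zero.mp h1).resolve_left hk.ne'
      apply Subtype.ext
      refine AddMonoidHom.ext fun x => ?_
      rw [← hf x, hf0]
      rfl
    have hsurj : Function.Surjective Ψ := by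
      intro c
      let χ : Additive G →+ ℂ :=
        ((finsuppHom n c).comp (AddMonoidHom.fst (Fin n →₀ ℤ) _)).comp μ
      have hχ_apply : ∀ x, χ x = finsuppHom n c (μ x).1 := fun x => rfl
      have hχV : χ ∈ V := by
        rw [hV]
        intro g hg
        rw [hχ_apply, hμ_par g hg]
        exact map_zero _
      refine ⟨⟨χ, hχV⟩, ?_⟩
      funext i
      rw [hΨ_apply]
      change χ (gi i) = c i
      rw [hχ_apply, hgi i]
      exact finsuppHom_single n c i
    have hequiv := LinearEquiv.ofBijective Ψ ⟨hinj, hsurj⟩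
    rw [hequiv.finrank_eq, Module.finrank_fin_fun]
  -- translation of the counting hypothesis
  have hcard' : ∀ ℓ : ℕ, ℓ.Prime →
      Nat.card {f : ((Fin n →₀ ℤ) × (⨁ i : I, ZMod (p i ^ e i))) →+ ZMod ℓ //
        ∀ d ∈ E, f (0, d) = 0} ≤ ℓ ^ n := by
    intro ℓ hℓ
    have h0 := hcard ℓ hℓ
    rw [hfin] at h0
    refine le_trans (le_of_eq ?_) h0
    let Φ : {f : ((Fin n →₀ ℤ) × (⨁ i : I, ZMod (p i ^ e i))) →+ ZMod ℓ //
          ∀ d ∈ E, f (0, d) = 0} →
        {χ : Additive G →+ ZMod ℓ //
          (∀ g ∈ Par, χ (Additive.ofMul g) = 0) ∧ ∀ g ∈ Ell, χ (Additive.ofMul g) = 0} :=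
      fun f => ⟨f.1.comp μ, by
        refine ⟨fun g hg => ?_, fun g hg => ?_⟩
        · rw [AddMonoidHom.comp_apply, hμ_par g hg, map_zero]
        · rw [AddMonoidHom.comp_apply, hEll_eq g hg]
          exact f.2 _ ⟨g, hg, rfl⟩⟩
    have hΦ : Function.Bijective Φ := by
      constructor
      · intro a b hab
        apply Subtype.ext
        refine AddMonoidHom.ext fun y => ?_
        obtain ⟨x, rfl⟩ := hμ_surj y
        have := congrArg (fun z => (z.1 : Additive G →+ ZMod ℓ) x) hab
        exact this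
      · intro χ
        obtain ⟨f, hf⟩ := factor χ.1 χ.2.1
        refine ⟨⟨f, ?_⟩, ?_⟩
        · rintro d ⟨g, hg, rfl⟩
          rw [← hEll_eq g hg, hf]
          exact χ.2.2 g hg
        · apply Subtype.ext
          refine AddMonoidHom.ext fun x => ?_
          exact hf x
    exact Nat.card_congr (Equiv.ofBijective Φ hΦ)
  -- the main argument
  obtain ⟨f, hf⟩ := factor φ hP
  have hfE : ∀ d ∈ E, f (0, d) = 0 := by
    rintro d ⟨g, hg, rfl⟩
    rw [← hEll_eq g hg, hf]
    exact hE g hg
  have hfD : ∀ d, f (0, d) = 0 := fun d => core_kills_torsion E hcard' f hfE d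
  obtain ⟨h, hh⟩ := exists_lift_finsupp n m (f.comp (AddMonoidHom.inl (Fin n →₀ ℤ) _))
  refine ⟨(h.comp (AddMonoidHom.fst (Fin n →₀ ℤ) _)).comp μ, fun g hg => ?_, fun g => ?_⟩
  · rw [AddMonoidHom.comp_apply, hμ_par g hg, map_zero]
  · have h1 : ((h.comp (AddMonoidHom.fst (Fin n →₀ ℤ) _)).comp μ) (Additive.ofMul g)
        = h (μ (Additive.ofMul g)).1 := rfl
    rw [h1, hh, ← hf]
    have h2 : μ (Additive.ofMul g)
        = ((μ (Additive.ofMul g)).1, 0) + (0, (μ (Additive.ofMul g)).2) := by
      simp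
    conv_rhs => rw [h2, map_add, hfD, add_zero]
    rfl

end Main

end Fermat.Agent.H86
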