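import Mathlib
import Fermat.Prelude.Sol.S_ModularForm_heckeT_slash_eq_self_of_mem_Gamma0

/-!
# Hecke operators on `Hom(Γ₀(N), A)` (helper86, P-S16 lower bound, block LB)

For a subgroup `Γ ≤ SL(2, ℤ)` a *Hecke datum* consists of finitely many matrices
`α x ∈ GL(2, ℝ)` (`x : X`), a right action `σ` of `Γ` on the index set `X` and a cocycle
`c γ x ∈ Γ` with `α x * γ = c γ x * α (σ γ x)`.  It defines an operator
`(D.op A φ) γ = ∑ x, φ (c γ x)` on `Hom(Γ, A)` for every abelian group `A`, natural in `A`.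

The two instances are the data of `T_r` (`r` prime, `r ∤ N`, `X = ℙ¹(𝔽_r)`, matrices
`heckeRep r x` of the prelude) and of `U_r` (`r ∣ N`, `X = ℤ/r`, matrices `heckeMatrix r j`).
-/

set_option autoImplicit false

namespace Fermat.Agent.H86

open CongruenceSubgroup Matrix.SpecialLinearGroup
open scoped MatrixGroups
open P2MW.S_ModularForm_heckeT_slash_eq_self_of_mem_Gamma0.ModularForm.HeckeSlashInvariance

/-- An abstract Hecke datum for a subgroup `Γ` of `SL(2, ℤ)`. -/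
structure HeckeDatum (Γ : Subgroup SL(2, ℤ)) where
  /-- the index set of the coset representatives -/
  X : Type
  /-- the index set is finite -/
  instFintype : Fintype X
  /-- the coset representatives -/
  α : X → GL (Fin 2) ℝ
  /-- the (right) action of `Γ` on the index set -/
  σ : Γ → X → X
  /-- the cocycle -/
  c : Γ → X → Γ
  spec : ∀ (γ : Γ) (x : X),
    α x * mapGL ℝ (γ : SL(2, ℤ)) = mapGL ℝ ((c γ x : Γ) : SL(2, ℤ)) * α (σ γ x)
  σ_bij : ∀ γ : Γ, Function.Bijective (σ γ)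
  σ_mul : ∀ (γ δ : Γ) (x : X), σ (γ * δ) x = σ δ (σ γ x)

namespace HeckeDatum

variable {Γ : Subgroup SL(2, ℤ)} (D : HeckeDatum Γ)

instance : Fintype D.X := D.instFintype

theorem mapGL_real_injective : Function.Injective (mapGL ℝ : SL(2, ℤ) → GL (Fin 2) ℝ) := by
  intro a b hab
  have h1 : ((mapGL ℝ a : GL (Fin 2) ℝ) : Matrix (Fin 2) (Fin 2) ℝ)
      = ((mapGL ℝ b : GL (Fin 2) ℝ) : Matrix (Fin 2) (Fin 2) ℝ) := by rw [hab]
  ext i j
  have h2 := congrFun (congrFun h1 i) j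
  simpa using h2

/-- The cocycle is uniquely determined by the defining relation. -/
theorem c_unique {γ γ' : Γ} {x y : D.X} (hy : y = D.σ γ x)
    (h : D.α x * mapGL ℝ (γ : SL(2, ℤ)) = mapGL ℝ (γ' : SL(2, ℤ)) * D.α y) :
    γ' = D.c γ x := by
  subst hy
  have h2 := D.spec γ x
  rw [h] at h2
  have h3 := mul_right_cancel h2
  exact Subtype.ext (mapGL_real_injective h3)

theorem c_mul (γ δ : Γ) (x : D.X) : D.c (γ * δ) x = D.c γ x * D.c δ (D.σ γ x) := by
  symm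
  refine D.c_unique (D.σ_mul γ δ x).symm ?_
  rw [Subgroup.coe_mul, Subgroup.coe_mul, map_mul, map_mul, ← mul_assoc, D.spec γ x, mul_assoc,
    D.spec δ (D.σ γ x), mul_assoc]

/-- The permutation of the index set attached to `γ`. -/
noncomputable def perm (γ : Γ) : Equiv.Perm D.X := Equiv.ofBijective (D.σ γ) (D.σ_bij γ)

@[simp] theorem perm_apply (γ : Γ) (x : D.X) : D.perm γ x = D.σ γ x := rfl

/-- The value of the Hecke operator of the datum on a homomorphism, as a function. -/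
noncomputable def opFun {A : Type*} [AddCommGroup A] (φ : Additive Γ →+ A) : Additive Γ →+ A :=
  AddMonoidHom.mk' (fun γ => ∑ x : D.X, φ (Additive.ofMul (D.c (Additive.toMul γ) x))) (by
    intro a b
    have h1 : ∀ x : D.X, φ (Additive.ofMul (D.c (Additive.toMul (a + b)) x))
        = φ (Additive.ofMul (D.c (Additive.toMul a) x))
          + φ (Additive.ofMul (D.c (Additive.toMul b) (D.σ (Additive.toMul a) x))) := by
      intro x
      rw [toMul_add, D.c_mul, ofMul_mul, map_add]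
    simp only [h1, Finset.sum_add_distrib]
    congr 1
    exact Equiv.sum_comp (D.perm (Additive.toMul a))
      (fun y => φ (Additive.ofMul (D.c (Additive.toMul b) y))))

theorem opFun_apply {A : Type*} [AddCommGroup A] (φ : Additive Γ →+ A) (γ : Γ) :
    D.opFun φ (Additive.ofMul γ) = ∑ x : D.X, φ (Additive.ofMul (D.c γ x)) := rfl

/-- The Hecke operator of the datum on `Hom(Γ, A)`. -/
noncomputable def op (A : Type*) [AddCommGroup A] : (Additive Γ →+ A) →+ (Additive Γ →+ A) where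
  toFun := D.opFun
  map_zero' := by
    refine AddMonoidHom.ext fun γ => ?_
    change ∑ x : D.X, (0 : Additive Γ →+ A) _ = 0
    simp
  map_add' φ ψ := by
    refine AddMonoidHom.ext fun γ => ?_
    change ∑ x : D.X, (φ + ψ) _ = (∑ x : D.X, φ _) + ∑ x : D.X, ψ _
    simp [Finset.sum_add_distrib]

theorem op_apply (A : Type*) [AddCommGroup A] (φ : Additive Γ →+ A) (γ : Γ) :
    D.op A φ (Additive.ofMul γ) = ∑ x : D.X, φ (Additive.ofMul (D.c γ x)) := rfl

/-- Naturality of the Hecke operator in the coefficient group. -/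
theorem op_comp {A B : Type*} [AddCommGroup A] [AddCommGroup B] (f : A →+ B)
    (φ : Additive Γ →+ A) : D.op B (f.comp φ) = f.comp (D.op A φ) := by
  refine AddMonoidHom.ext fun γ => ?_
  obtain ⟨γ, rfl⟩ : ∃ γ' : Γ, Additive.ofMul γ' = γ := ⟨Additive.toMul γ, rfl⟩
  rw [op_apply, AddMonoidHom.comp_apply, op_apply, map_sum]
  rfl

theorem op_smul_int (A : Type*) [AddCommGroup A] (n : ℤ) (φ : Additive Γ →+ A) :
    D.op A (n • φ) = n • D.op A φ := map_zsmul (D.op A) n φ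

end HeckeDatum

/-! ### The datum of `T_r`, `r ∤ N` -/

section DatumT

variable {N : ℕ} (r : ℕ) [Fact r.Prime]

theorem redMatrix_mul (g h : SL(2, ℤ)) :
    redMatrix r (g * h) = redMatrix r h * redMatrix r g := by
  ext i j
  fin_cases i <;> fin_cases j <;>
    simp [redMatrix, Matrix.mul_apply, Fin.sum_univ_two] <;> ring

theorem dvd_of_mem_Gamma0 (γ : Gamma0 N) : (N : ℤ) ∣ (γ : SL(2, ℤ)) 1 0 :=
  (ZMod.intCast_zmod_eq_zero_iff_dvd _ _).mp (Gamma0_mem.mp γ.2)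

theorem exists_cocT (hrN : ¬ r ∣ N) (γ : Gamma0 N) (x : OnePoint (ZMod r)) :
    ∃ γ' : Gamma0 N, heckeRep r x * mapGL ℝ (γ : SL(2, ℤ)) =
      mapGL ℝ ((γ' : Gamma0 N) : SL(2, ℤ)) * heckeRep r (redMatrix r (γ : SL(2, ℤ)) • x) := by
  obtain ⟨g', hg', h⟩ := heckeRep_mul hrN (γ : SL(2, ℤ)) (dvd_of_mem_Gamma0 γ) x
  exact ⟨⟨g', Gamma0_mem.mpr ((ZMod.intCast_zmod_eq_zero_iff_dvd _ _).mpr hg')⟩, h⟩

/-- The Hecke datum of `T_r` on `Γ₀(N)`, `r ∤ N`. -/
noncomputable def datumT (hrN : ¬ r ∣ N) : HeckeDatum (Gamma0 N) where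
  X := OnePoint (ZMod r)
  instFintype := inferInstance
  α := heckeRep r
  σ γ x := redMatrix r (γ : SL(2, ℤ)) • x
  c γ x := (exists_cocT r hrN γ x).choose
  spec γ x := (exists_cocT r hrN γ x).choose_spec
  σ_bij γ := MulAction.bijective (redMatrix r (γ : SL(2, ℤ)))
  σ_mul γ δ x := by
    rw [Subgroup.coe_mul, redMatrix_mul, mul_smul]

end DatumT

/-! ### The datum of `U_r`, `r ∣ N` -/

section DatumU

variable {N : ℕ} (r : ℕ) [NeZero r]

omit [NeZero r] in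
theorem cast_eq_zero_of_mem_Gamma0 (hrN : r ∣ N) (γ : Gamma0 N) :
    ((((γ : SL(2, ℤ)) 1 0 : ℤ)) : ZMod r) = 0 :=
  (ZMod.intCast_zmod_eq_zero_iff_dvd _ _).mpr
    ((Int.natCast_dvd_natCast.mpr hrN).trans (dvd_of_mem_Gamma0 γ))

theorem exists_cocU (hrN : r ∣ N) (γ : Gamma0 N) (x : ZMod r) :
    ∃ γ' : Gamma0 N, ModularForm.heckeMatrix r x.val * mapGL ℝ (γ : SL(2, ℤ)) =
      mapGL ℝ ((γ' : Gamma0 N) : SL(2, ℤ)) *
        ModularForm.heckeMatrix r
          (affinePerm (γ : SL(2, ℤ)) (cast_eq_zero_of_mem_Gamma0 r hrN γ) x).val := by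
  obtain ⟨g', hg', h⟩ := heckeMatrix_mul_of_dvd (p := r) (γ : SL(2, ℤ))
    ((Int.natCast_dvd_natCast.mpr hrN).trans (dvd_of_mem_Gamma0 γ)) x
  refine ⟨⟨g', ?_⟩, h⟩
  rw [Gamma0_mem, hg']
  push_cast
  rw [Gamma0_mem.mp γ.2, mul_zero]

/-- The Hecke datum of `U_r` on `Γ₀(N)`, `r ∣ N`. -/
noncomputable def datumU (hrN : r ∣ N) : HeckeDatum (Gamma0 N) where
  X := ZMod r
  instFintype := inferInstance
  α x := ModularForm.heckeMatrix r x.val
  σ γ x := affinePerm (γ : SL(2, ℤ)) (cast_eq_zero_of_mem_Gamma0 r hrN γ) x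
  c γ x := (exists_cocU r hrN γ x).choose
  spec γ x := (exists_cocU r hrN γ x).choose_spec
  σ_bij γ := (affinePerm (γ : SL(2, ℤ)) (cast_eq_zero_of_mem_Gamma0 r hrN γ)).bijective
  σ_mul γ δ x := by
    have hγ := cast_eq_zero_of_mem_Gamma0 r hrN γ
    have hδ := cast_eq_zero_of_mem_Gamma0 r hrN δ
    have huγ := unit_of_apply_one_zero_eq_zero (γ : SL(2, ℤ)) hγ
    rw [affinePerm_apply, affinePerm_apply, affinePerm_apply]
    simp only [Subgroup.coe_mul, Matrix.SpecialLinearGroup.coe_mul, Matrix.mul_apply,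
      Fin.sum_univ_two]
    push_cast
    rw [hγ]
    linear_combination
      ((((((δ : SL(2, ℤ)) 1 1 : ℤ)) : ZMod r) * ((((δ : SL(2, ℤ)) 0 1 : ℤ)) : ZMod r))) * huγ

end DatumU

/-- The Hecke operator on `Hom(Γ₀(N), A)` attached to a prime `ℓ`: `U_ℓ` if `ℓ ∣ N`,
`T_ℓ` otherwise (matching `CuspForm.heckeFormsGen`). -/
noncomputable def homHeckeGen (N : ℕ) (A : Type*) [AddCommGroup A] (ℓ : Nat.Primes) :
    (Additive (Gamma0 N) →+ A) →+ (Additive (Gamma0 N) →+ A) :=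
  haveI : Fact (ℓ : ℕ).Prime := ⟨ℓ.2⟩
  haveI : NeZero (ℓ : ℕ) := ⟨ℓ.2.ne_zero⟩
  if h : (ℓ : ℕ) ∣ N then (datumU (ℓ : ℕ) h).op A else (datumT (ℓ : ℕ) h).op A

theorem homHeckeGen_of_dvd {N : ℕ} (A : Type*) [AddCommGroup A] {ℓ : Nat.Primes}
    (h : (ℓ : ℕ) ∣ N) :
    homHeckeGen N A ℓ = (haveI : NeZero (ℓ : ℕ) := ⟨ℓ.2.ne_zero⟩; (datumU (ℓ : ℕ) h).op A) := by
  unfold homHeckeGen
  rw [dif_pos h]

theorem homHeckeGen_of_not_dvd {N : ℕ} (A : Type*) [AddCommGroup A] {ℓ : Nat.Primes}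
    (h : ¬ (ℓ : ℕ) ∣ N) :
    homHeckeGen N A ℓ = (haveI : Fact (ℓ : ℕ).Prime := ⟨ℓ.2⟩; (datumT (ℓ : ℕ) h).op A) := by
  unfold homHeckeGen
  rw [dif_neg h]

/-- Naturality of `homHeckeGen` in the coefficient group. -/
theorem homHeckeGen_comp (N : ℕ) {A B : Type*} [AddCommGroup A] [AddCommGroup B] (f : A →+ B)
    (ℓ : Nat.Primes) (φ : Additive (Gamma0 N) →+ A) :
    homHeckeGen N B ℓ (f.comp φ) = f.comp (homHeckeGen N A ℓ φ) := by
  unfold homHeckeGen
  split_ifs with h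
  · exact HeckeDatum.op_comp _ f φ
  · exact HeckeDatum.op_comp _ f φ

end Fermat.Agent.H86
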