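/-
P-CFT row 596 (2I-LOCIDX), helper86: abstract group lemmas.

* `relIndex_le_of_code`: a "code" `f : G → X` into a finite type which separates the cosets of
  `B` inside `A` bounds the relative index `[A : A ∩ B]`.
* `index_pow_sup_eq`: in a commutative group, if `N` has finite index then
  `[G : G ^ p · N] = [{x | x ^ p ∈ N} : N]` (cokernel and kernel of `x ↦ x ^ p` on `G / N`).
* `index_iInf_of_antitone`: a decreasing chain of subgroups of bounded finite index has an
  intersection of finite index with the same bound.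
-/
import Mathlib

set_option autoImplicit false

namespace Fermat.Agent.H86.LocIdx

open Subgroup

/-- A code separating the cosets of `B` in `A` bounds `[A : A ∩ B]`. -/
theorem relIndex_le_of_code {G : Type*} [Group G] (A B : Subgroup G) {X : Type*} [Finite X]
    (f : G → X) (h : ∀ a ∈ A, ∀ b ∈ A, f a = f b → a⁻¹ * b ∈ B) :
    B.relIndex A ≠ 0 ∧ B.relIndex A ≤ Nat.card X := by
  classical
  let g : (↥A ⧸ B.subgroupOf A) → X := fun c => f ((Quotient.out c : ↥A) : G)
  have hg : Function.Injective g := by
    intro c c' hcc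
    have h1 := h _ (Quotient.out c : ↥A).2 _ (Quotient.out c' : ↥A).2 hcc
    have h2 : (Quotient.out c : ↥A)⁻¹ * (Quotient.out c' : ↥A) ∈ B.subgroupOf A := by
      rw [Subgroup.mem_subgroupOf]
      simpa using h1
    have h3 : (QuotientGroup.mk (Quotient.out c : ↥A) : ↥A ⧸ B.subgroupOf A) =
        QuotientGroup.mk (Quotient.out c' : ↥A) := QuotientGroup.eq.mpr h2
    have e1 : (QuotientGroup.mk (Quotient.out c : ↥A) : ↥A ⧸ B.subgroupOf A) = c :=
      Quotient.out_eq c
    have e2 : (QuotientGroup.mk (Quotient.out c' : ↥A) : ↥A ⧸ B.subgroupOf A) = c' :=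
      Quotient.out_eq c'
    rw [e1, e2] at h3
    exact h3
  have hfin : Finite (↥A ⧸ B.subgroupOf A) := Finite.of_injective g hg
  refine ⟨?_, ?_⟩
  · rw [Subgroup.relIndex]
    exact Subgroup.index_ne_zero_of_finite
  · rw [Subgroup.relIndex, Subgroup.index_eq_card]
    exact Nat.card_le_card_of_injective g hg

/-- Index version (`A = ⊤`). -/
theorem index_le_of_code {G : Type*} [Group G] (B : Subgroup G) {X : Type*} [Finite X]
    (f : G → X) (h : ∀ a b : G, f a = f b → a⁻¹ * b ∈ B) :
    B.index ≠ 0 ∧ B.index ≤ Nat.card X := by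
  have := relIndex_le_of_code (⊤ : Subgroup G) B f (fun a _ b _ hab => h a b hab)
  simpa using this

/-- In a finite commutative group the cokernel and the kernel of `x ↦ x ^ p` have the same
cardinality. -/
theorem index_range_pow_eq_card_ker (Q : Type*) [CommGroup Q] [Finite Q] (p : ℕ) :
    (powMonoidHom p : Q →* Q).range.index = Nat.card (powMonoidHom p : Q →* Q).ker := by
  set f : Q →* Q := powMonoidHom p
  have h1 := Subgroup.card_mul_index f.range
  have h2 := Subgroup.card_mul_index f.ker
  rw [Subgroup.index_ker] at h2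
  have hpos : 0 < Nat.card f.range := Nat.card_pos
  have h3 : Nat.card f.range * f.range.index = Nat.card f.range * Nat.card f.ker := by
    rw [h1, ← h2, mul_comm]
  exact Nat.eq_of_mul_eq_mul_left hpos h3

/-- `[G : G ^ p · N] = [{x | x ^ p ∈ N} : N]` when `N` has finite index. -/
theorem index_pow_sup_eq {G : Type*} [CommGroup G] (N : Subgroup G) (hN : N.index ≠ 0)
    (p : ℕ) :
    ((powMonoidHom p : G →* G).range ⊔ N).index =
      N.relIndex (N.comap (powMonoidHom p : G →* G)) := by
  have : N.FiniteIndex := ⟨hN⟩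
  have : Finite (G ⧸ N) := Subgroup.finite_quotient_of_finiteIndex
  set f : (G ⧸ N) →* (G ⧸ N) := powMonoidHom p with hf
  have hsurj : Function.Surjective (QuotientGroup.mk' N) := QuotientGroup.mk'_surjective N
  -- the range pulls back to `G ^ p ⊔ N`
  have e1 : f.range.comap (QuotientGroup.mk' N) = (powMonoidHom p : G →* G).range ⊔ N := by
    ext x
    rw [Subgroup.mem_comap, MonoidHom.mem_range, Subgroup.mem_sup]
    constructor
    · rintro ⟨c, hc⟩
      obtain ⟨y, rfl⟩ := hsurj c
      have h1 : (QuotientGroup.mk' N) (y ^ p) = (QuotientGroup.mk' N) x := by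
        rw [map_pow]; exact hc
      have h2 : (y ^ p)⁻¹ * x ∈ N := by
        have := QuotientGroup.eq.mp h1
        exact this
      exact ⟨y ^ p, ⟨y, rfl⟩, (y ^ p)⁻¹ * x, h2, by group⟩
    · rintro ⟨a, ⟨y, rfl⟩, n, hn, rfl⟩
      refine ⟨QuotientGroup.mk' N y, ?_⟩
      have h1 : (QuotientGroup.mk' N) n = 1 := (QuotientGroup.eq_one_iff n).mpr hn
      rw [map_mul, h1, mul_one]
      simp [hf]
  -- the kernel pulls back to `{x | x ^ p ∈ N}`
  have e2 : f.ker.comap (QuotientGroup.mk' N) = N.comap (powMonoidHom p : G →* G) := by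
    ext x
    rw [Subgroup.mem_comap, MonoidHom.mem_ker, Subgroup.mem_comap]
    have : f (QuotientGroup.mk' N x) = QuotientGroup.mk' N (x ^ p) := by
      simp [hf]
    rw [this]
    exact QuotientGroup.eq_one_iff (x ^ p)
  have hle : N ≤ N.comap (powMonoidHom p : G →* G) := by
    intro x hx
    rw [Subgroup.mem_comap]
    exact N.pow_mem hx p
  rw [← e1, Subgroup.index_comap_of_surjective _ hsurj, index_range_pow_eq_card_ker]
  have h3 := Subgroup.relIndex_mul_index hle
  rw [← e2, Subgroup.index_comap_of_surjective _ hsurj] at h3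
  have h4 := Subgroup.card_mul_index f.ker
  have h5 : N.index = Nat.card (G ⧸ N) := Subgroup.index_eq_card N
  have hk : f.ker.index ≠ 0 := Subgroup.index_ne_zero_of_finite
  have h6 : N.relIndex (f.ker.comap (QuotientGroup.mk' N)) * f.ker.index =
      Nat.card f.ker * f.ker.index := by rw [h3, h4, h5]
  rw [← e2]
  exact (Nat.eq_of_mul_eq_mul_right (Nat.pos_of_ne_zero hk) h6).symm

/-- A decreasing chain of subgroups of bounded finite index. -/
theorem index_iInf_of_antitone {G : Type*} [Group G] (H : ℕ → Subgroup G) (hH : Antitone H)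
    (B : ℕ) (hB : ∀ m, (H m).index ≠ 0 ∧ (H m).index ≤ B) :
    (⨅ m, H m).index ≠ 0 ∧ (⨅ m, H m).index ≤ B := by
  classical
  -- the index is monotone and bounded, so it has a maximum value
  have hex : ∃ m₀, ∀ m, (H m).index ≤ (H m₀).index := by
    by_contra hcon
    push Not at hcon
    -- build arbitrarily large indices
    have : ∀ k : ℕ, ∃ m, k ≤ (H m).index := by
      intro k
      induction k with
      | zero => exact ⟨0, Nat.zero_le _⟩
      | succ k ih =>
        obtain ⟨m, hm⟩ := ih
        obtain ⟨m', hm'⟩ := hcon m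
        exact ⟨m', by omega⟩
    obtain ⟨m, hm⟩ := this (B + 1)
    have := (hB m).2
    omega
  obtain ⟨m₀, hm₀⟩ := hex
  have heq : ∀ m, m₀ ≤ m → H m = H m₀ := by
    intro m hm
    have hle : H m ≤ H m₀ := hH hm
    have h1 := Subgroup.relIndex_mul_index hle
    have h2 := hm₀ m
    have h3 : (H m₀).index ≠ 0 := (hB m₀).1
    have h4 : (H m).relIndex (H m₀) = 1 := by
      have hpos : 0 < (H m).relIndex (H m₀) := by
        rcases Nat.eq_zero_or_pos ((H m).relIndex (H m₀)) with h0 | h0
        · rw [h0, zero_mul] at h1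
          exact absurd h1.symm (hB m).1
        · exact h0
      by_contra hne
      have h5 : 2 ≤ (H m).relIndex (H m₀) := by omega
      have h6 : 2 * (H m₀).index ≤ (H m).index := by
        rw [← h1]; exact Nat.mul_le_mul_right _ h5
      have h7 : 0 < (H m₀).index := Nat.pos_of_ne_zero h3
      omega
    exact le_antisymm hle (Subgroup.relIndex_eq_one.mp h4)
  have hinf : (⨅ m, H m) = H m₀ := by
    apply le_antisymm (iInf_le _ m₀)
    refine le_iInf fun m => ?_
    rcases le_total m₀ m with h | h
    · rw [heq m h]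
    · exact hH h
  rw [hinf]
  exact hB m₀

end Fermat.Agent.H86.LocIdx
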