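/-
P-CFT row 596 (2I-LOCIDX), helper86: `[Kˣ : locPow K p v] ≤ p² · N(v)^e`, `e = ord_v(p)`.

Route: `N := U^(M) · ⟨π ^ p⟩` has finite index in `Kˣ` (code `x ↦ (ord x mod p, u mod v^M)`),
so `[Kˣ : Kˣ^p · U^(M)] = [Kˣ : Kˣ^p · N] = [{x | x ^ p ∈ N} : N]` (`index_pow_sup_eq`), and the
latter is bounded by the code `x ↦ (ord x mod p, i, (u ζ^(-i) - 1) / π^(M - e) mod v^e)`,
where `u = x π^(-ord x)` and `u ≡ ζ^i mod v^(M - e)` (the roots of `X ^ p - 1` are separated by
`ord_v (p)`).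
-/
import Fermat.Agent.H25.CFT.Interfaces
import Fermat.Agent.H86.LocIdxGroup

set_option autoImplicit false

open NumberField IsDedekindDomain

namespace Fermat.Agent.H86.LocIdx

open Fermat.Agent.H43.Cft

section filtration

variable (K : Type*) [Field K] [NumberField K] (v : HeightOneSpectrum (𝓞 K))

/-- `x < exp (n + 1) ↔ x ≤ exp n` in `ℤᵐ⁰`. -/
theorem lt_exp_succ_iff {x : WithZero (Multiplicative ℤ)} (n : ℤ) :
    x < WithZero.exp (n + 1) ↔ x ≤ WithZero.exp n := by
  rw [WithZero.exp_add]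
  exact WithZero.lt_mul_exp_iff_le WithZero.exp_ne_zero

/-- The filtration `U ⊇ U^(1) ⊇ U^(2) ⊇ …` of the `v`-units of `Kˣ`
(`unitFil 0` = the `v`-units, `unitFil (m + 1) = principalUnits K v m`). -/
def unitFil (k : ℕ) : Subgroup Kˣ where
  carrier := {u | v.valuation K (u : K) = 1 ∧
    v.valuation K ((u : K) - 1) ≤ WithZero.exp (-(k : ℤ))}
  one_mem' := by simp
  mul_mem' := by
    rintro a b ⟨ha1, ha⟩ ⟨hb1, hb⟩
    refine ⟨by simp [ha1, hb1], ?_⟩
    have e : ((a * b : Kˣ) : K) - 1 = ((a : K) - 1) * (b : K) + ((b : K) - 1) := by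
      push_cast; ring
    rw [e]
    refine le_trans (Valuation.map_add _ _ _) (max_le ?_ hb)
    rw [map_mul, hb1, mul_one]; exact ha
  inv_mem' := by
    rintro a ⟨ha1, ha⟩
    have hinv : v.valuation K ((a⁻¹ : Kˣ) : K) = 1 := by
      rw [Units.val_inv_eq_inv_val, map_inv₀, ha1, inv_one]
    refine ⟨hinv, ?_⟩
    have e : ((a⁻¹ : Kˣ) : K) - 1 = -(((a : K) - 1) * ((a⁻¹ : Kˣ) : K)) := by
      have : (a : K) * ((a⁻¹ : Kˣ) : K) = 1 := by simp
      linear_combination this
    rw [e, Valuation.map_neg, map_mul, hinv, mul_one]; exact ha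

variable {K v}

theorem mem_unitFil {k : ℕ} {u : Kˣ} :
    u ∈ unitFil K v k ↔ v.valuation K (u : K) = 1 ∧
      v.valuation K ((u : K) - 1) ≤ WithZero.exp (-(k : ℤ)) := Iff.rfl

theorem valuation_eq_one_of_sub_one_lt {x : K} (h : v.valuation K (x - 1) < 1) :
    v.valuation K x = 1 := by
  have h2 := Valuation.map_add_eq_of_lt_left (v.valuation K) (x := (1 : K))
    (y := x - 1) (by simpa using h)
  simpa using h2

variable (K v) in
theorem unitFil_succ (m : ℕ) : unitFil K v (m + 1) = principalUnits K v m := by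
  ext u
  rw [mem_unitFil, mem_principalUnits]
  push_cast
  constructor
  · rintro ⟨-, h⟩; exact h
  · intro h
    refine ⟨valuation_eq_one_of_sub_one_lt (lt_of_le_of_lt h ?_), h⟩
    rw [← WithZero.exp_zero, WithZero.exp_lt_exp]; omega

theorem unitFil_antitone : Antitone (unitFil K v) := by
  intro a b hab u hu
  rw [mem_unitFil] at hu ⊢
  refine ⟨hu.1, hu.2.trans ?_⟩
  rw [WithZero.exp_le_exp]
  have : (a : ℤ) ≤ b := by exact_mod_cast hab
  omega

/-- membership in `unitFil` of a quotient, from closeness -/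
theorem inv_mul_mem_unitFil {n : ℕ} {w w' : Kˣ} (hw : v.valuation K (w : K) = 1)
    (hw' : v.valuation K (w' : K) = 1)
    (h : v.valuation K ((w' : K) - (w : K)) ≤ WithZero.exp (-(n : ℤ))) :
    w⁻¹ * w' ∈ unitFil K v n := by
  have hw0 : (w : K) ≠ 0 := w.ne_zero
  rw [mem_unitFil]
  have e : ((w⁻¹ * w' : Kˣ) : K) - 1 = (w : K)⁻¹ * ((w' : K) - (w : K)) := by
    rw [Units.val_mul, Units.val_inv_eq_inv_val]
    field_simp
  refine ⟨?_, ?_⟩
  · rw [Units.val_mul, Units.val_inv_eq_inv_val, map_mul, map_inv₀, hw, hw', inv_one, one_mul]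
  · rw [e, map_mul, map_inv₀, hw, inv_one, one_mul]
    exact h

/-- **Coding lemma.**  There is a map `Kˣ → 𝓞 K ⧸ v ^ j` which separates the cosets of
`U^(k + j)` in `U^(k)`. -/
theorem exists_code (k j : ℕ) : ∃ c : Kˣ → (𝓞 K ⧸ v.asIdeal ^ j),
    ∀ w ∈ unitFil K v k, ∀ w' ∈ unitFil K v k, c w = c w' →
      w⁻¹ * w' ∈ unitFil K v (k + j) := by
  classical
  obtain ⟨π, hπ⟩ := v.valuation_exists_uniformizer K
  have hπ0 : π ≠ 0 := by
    intro h
    rw [h, map_zero] at hπ
    exact WithZero.exp_ne_zero hπ.symm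
  have hπk : v.valuation K (π ^ k) = WithZero.exp (-(k : ℤ)) := by
    rw [map_pow, hπ, ← WithZero.exp_nsmul]
    congr 1
    simp
  let γ : (WithZero (Multiplicative ℤ))ˣ := Units.mk0 (WithZero.exp (-(j : ℤ) + 1))
    WithZero.exp_ne_zero
  -- the approximation
  have key : ∀ w : Kˣ, ∃ a : 𝓞 K, w ∈ unitFil K v k →
      v.valuation K ((a : K) - ((w : K) - 1) / π ^ k) ≤ WithZero.exp (-(j : ℤ)) := by
    intro w
    by_cases hw : w ∈ unitFil K v k
    · have hy : v.valuation K (((w : K) - 1) / π ^ k) ≤ 1 := by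
        rw [map_div₀, hπk]
        rw [div_le_iff₀ (by simp), one_mul]
        exact hw.2
      obtain ⟨a, ha⟩ := v.exists_valuation_sub_lt_of_integer hy γ
      refine ⟨a, fun _ => ?_⟩
      have ha' : v.valuation K ((a : K) - ((w : K) - 1) / π ^ k) <
          WithZero.exp (-(j : ℤ) + 1) := ha
      exact (lt_exp_succ_iff _).mp ha'
    · exact ⟨0, fun h => absurd h hw⟩
  choose a ha using key
  refine ⟨fun w => Ideal.Quotient.mk _ (a w), ?_⟩
  intro w hw w' hw' hc
  have hmem : a w - a w' ∈ v.asIdeal ^ j := (Ideal.Quotient.mk_eq_mk_iff_sub_mem _ _).mp hc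
  have h1 : v.valuation K (((a w - a w' : 𝓞 K) : K)) ≤ WithZero.exp (-(j : ℤ)) := by
    rw [v.valuation_of_algebraMap]
    exact (v.intValuation_le_pow_iff_mem _ _).mpr hmem
  have h2 := ha w hw
  have h3 := ha w' hw'
  -- difference of the two approximated elements
  have e : ((w' : K) - (w : K)) / π ^ k =
      (((a w : K) - ((w : K) - 1) / π ^ k) - ((a w' : K) - ((w' : K) - 1) / π ^ k))
        - (((a w - a w' : 𝓞 K)) : K) := by
    push_cast
    field_simp
    ring
  have h4 : v.valuation K (((w' : K) - (w : K)) / π ^ k) ≤ WithZero.exp (-(j : ℤ)) := by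
    rw [e]
    refine le_trans (Valuation.map_sub _ _ _) (max_le ?_ h1)
    exact le_trans (Valuation.map_sub _ _ _) (max_le h2 h3)
  have h5 : v.valuation K ((w' : K) - (w : K)) ≤ WithZero.exp (-((k + j : ℕ) : ℤ)) := by
    rw [map_div₀, hπk, div_le_iff₀ (by simp)] at h4
    refine h4.trans (le_of_eq ?_)
    rw [← WithZero.exp_add]
    congr 1
    push_cast; ring
  exact inv_mul_mem_unitFil hw.1 hw'.1 h5

end filtration

section roots

/-- `∏_{ξ ≠ ξ₀} (ξ₀ - ξ) = p ξ₀^(p-1)` over the `p`-th roots of unity. -/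
theorem prod_erase_root {F : Type*} [Field F] [DecidableEq F] {p : ℕ} (hp : 0 < p) {ζ : F}
    (hζ : IsPrimitiveRoot ζ p) {ξ₀ : F}
    (hξ₀ : ξ₀ ∈ Polynomial.nthRootsFinset p (1 : F)) :
    ∏ ξ ∈ (Polynomial.nthRootsFinset p (1 : F)).erase ξ₀, (ξ₀ - ξ) = (p : F) * ξ₀ ^ (p - 1) := by
  have h : Polynomial.eval ξ₀ (Polynomial.derivative (Polynomial.X ^ p - 1 : Polynomial F)) =
      Polynomial.eval ξ₀ (Polynomial.derivative
        (∏ ζ ∈ Polynomial.nthRootsFinset p (1 : F), (Polynomial.X - Polynomial.C ζ))) := by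
    rw [Polynomial.X_pow_sub_one_eq_prod hp hζ]
  rw [Polynomial.derivative_prod_finset, Polynomial.eval_finsetSum,
    Finset.sum_eq_single ξ₀] at h
  · rw [Polynomial.derivative_sub, Polynomial.derivative_X_pow, Polynomial.derivative_one,
      sub_zero] at h
    simp only [Polynomial.derivative_X_sub_C, mul_one, Polynomial.eval_mul, Polynomial.eval_pow,
      Polynomial.eval_X, Polynomial.eval_prod, Polynomial.eval_sub, Polynomial.eval_C] at h
    rw [← h]
  · intro a ha hne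
    rw [Polynomial.eval_mul, Polynomial.eval_prod]
    have : ξ₀ ∈ (Polynomial.nthRootsFinset p (1 : F)).erase a :=
      Finset.mem_erase.mpr ⟨fun h => hne h.symm, hξ₀⟩
    rw [Finset.prod_eq_zero this (by simp), zero_mul]
  · intro h'
    exact absurd hξ₀ h'

variable {K : Type*} [Field K] [NumberField K] {v : HeightOneSpectrum (𝓞 K)}

/-- The roots of `X ^ p - 1` are `v`-adically separated by `ord_v (p)`: an approximate root is
close to a root. -/
theorem exists_root_close {p : ℕ} (hp : p.Prime) {ζ : K} (hζ : IsPrimitiveRoot ζ p) {e : ℕ}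
    (hV : v.valuation K ((p : ℕ) : K) = WithZero.exp (-(e : ℤ))) {x : K} {M : ℕ}
    (hx : v.valuation K (x ^ p - 1) ≤ WithZero.exp (-(M : ℤ))) :
    ∃ i : ℕ, i < p ∧ v.valuation K (x - ζ ^ i) ≤ WithZero.exp (-(M : ℤ) + e) := by
  classical
  have hpos : 0 < p := hp.pos
  have : NeZero p := ⟨hp.ne_zero⟩
  set μ := Polynomial.nthRootsFinset p (1 : K) with hμ
  have h1mem : (1 : K) ∈ μ := by
    rw [hμ, Polynomial.mem_nthRootsFinset hpos]; exact one_pow p
  obtain ⟨ξ₀, hξ₀, hmin⟩ := Finset.exists_min_image μ (fun ξ => v.valuation K (x - ξ))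
    ⟨1, h1mem⟩
  have hξ₀p : ξ₀ ^ p = 1 := (Polynomial.mem_nthRootsFinset hpos (1 : K)).mp hξ₀
  have hVroot : ∀ ξ ∈ μ, v.valuation K ξ = 1 := by
    intro ξ hξ
    have hξp : ξ ^ p = 1 := (Polynomial.mem_nthRootsFinset hpos (1 : K)).mp hξ
    have h := congrArg (v.valuation K) hξp
    rw [map_pow, map_one] at h
    exact (pow_eq_one_iff.mp h).resolve_right hp.ne_zero
  -- the other factors are at least as large as the root differences
  have hfac : ∀ ξ ∈ μ.erase ξ₀, v.valuation K (ξ₀ - ξ) ≤ v.valuation K (x - ξ) := by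
    intro ξ hξ
    have hξμ : ξ ∈ μ := Finset.mem_of_mem_erase hξ
    by_contra hcon
    rw [not_le] at hcon
    have e1 : x - ξ₀ = (x - ξ) + -(ξ₀ - ξ) := by ring
    have h2 : v.valuation K (x - ξ₀) = v.valuation K (ξ₀ - ξ) := by
      rw [e1, Valuation.map_add_eq_of_lt_right _ (by rwa [Valuation.map_neg]),
        Valuation.map_neg]
    have h3 := hmin ξ hξμ
    rw [h2] at h3
    exact absurd hcon (not_lt.mpr h3)
  have hprod : v.valuation K (∏ ξ ∈ μ.erase ξ₀, (ξ₀ - ξ)) = WithZero.exp (-(e : ℤ)) := by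
    rw [prod_erase_root hpos hζ hξ₀, map_mul, map_pow, hVroot ξ₀ hξ₀, one_pow, mul_one, hV]
  have hsplit : x ^ p - 1 = (x - ξ₀) * ∏ ξ ∈ μ.erase ξ₀, (x - ξ) := by
    have h := congrArg (Polynomial.eval x) (Polynomial.X_pow_sub_one_eq_prod hpos hζ)
    simp only [Polynomial.eval_sub, Polynomial.eval_pow, Polynomial.eval_X, Polynomial.eval_one,
      Polynomial.eval_prod, Polynomial.eval_C] at h
    rw [h, ← Finset.mul_prod_erase μ _ hξ₀]
  have hle : v.valuation K (x - ξ₀) * WithZero.exp (-(e : ℤ)) ≤ WithZero.exp (-(M : ℤ)) := by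
    refine le_trans ?_ hx
    rw [hsplit, map_mul, ← hprod, map_prod, map_prod]
    exact mul_le_mul' le_rfl (Finset.prod_le_prod' hfac)
  obtain ⟨i, hip, hi⟩ := hζ.eq_pow_of_pow_eq_one
    ((Polynomial.mem_nthRootsFinset hpos (1 : K)).mp hξ₀)
  refine ⟨i, hip, ?_⟩
  rw [hi]
  have h5 : v.valuation K (x - ξ₀) ≤ WithZero.exp (-(M : ℤ)) * (WithZero.exp (-(e : ℤ)))⁻¹ := by
    rw [le_mul_inv_iff₀ (by simp)]
    exact hle
  refine h5.trans (le_of_eq ?_)
  rw [← WithZero.exp_neg, ← WithZero.exp_add]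
  congr 1
  ring

end roots

end Fermat.Agent.H86.LocIdx
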