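import Mathlib

/-!
# P-MW row MW-K, group-theoretic part (helper86)

`exists_sep_char`: for subgroups `G, H` of a group with `G / (H ⊓ G)` abelian of prime
exponent `n`, every element of `G` outside `H` is detected by a function `b` into `ZMod n`,
additive on `G` and vanishing on `H ⊓ G`.
-/

set_option autoImplicit false

namespace Fermat.Agent.H86.MWK

theorem exists_addhom_sep {A : Type*} [AddCommGroup A] (n : ℕ) [Fact n.Prime]
    (hexp : ∀ x : A, n • x = 0) (x : A) (hx : x ≠ 0) : ∃ f : A →+ ZMod n, f x ≠ 0 := by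
  have instM : Module (ZMod n) A := AddCommGroup.zmodModule hexp
  obtain ⟨φ, hφ⟩ : ∃ φ : A →ₗ[ZMod n] ZMod n, φ x ≠ 0 := by
    by_contra hcon
    push Not at hcon
    exact hx ((Module.forall_dual_apply_eq_zero_iff (ZMod n) _).mp hcon)
  exact ⟨φ.toAddMonoidHom, hφ⟩

theorem exists_hom_sep {Q : Type*} [Group Q] (n : ℕ) [Fact n.Prime]
    (hcomm : ∀ a b : Q, a * b = b * a) (hexp : ∀ a : Q, a ^ n = 1) (x : Q) (hx : x ≠ 1) :
    ∃ f : Q → ZMod n, (∀ a b, f (a * b) = f a + f b) ∧ f x ≠ 0 := by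
  let instQ : CommGroup Q := { (inferInstance : Group Q) with mul_comm := hcomm }
  obtain ⟨f, hf⟩ := exists_addhom_sep (A := Additive Q) n
    (fun a => by
      induction a using Additive.rec with
      | ofMul a => rw [← ofMul_pow, hexp a]; rfl)
    (Additive.ofMul x) (fun h => hx (by simpa using h))
  refine ⟨fun a => f (Additive.ofMul a), fun a b => ?_, hf⟩
  show f (Additive.ofMul (a * b)) = _
  rw [ofMul_mul, map_add]

theorem subgroupOf_normal_of_comm {Γ : Type*} [Group Γ] (G H : Subgroup Γ)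
    (hcomm : ∀ σ τ, σ ∈ G → τ ∈ G → σ * τ * σ⁻¹ * τ⁻¹ ∈ H) :
    (H.subgroupOf G).Normal := by
  constructor
  intro x hx g
  rw [Subgroup.mem_subgroupOf] at hx ⊢
  have h1 := hcomm g x g.2 x.2
  have h2 := H.mul_mem h1 hx
  have h3 : ((g * x * g⁻¹ : G) : Γ) = (g : Γ) * x * (g : Γ)⁻¹ * (x : Γ)⁻¹ * x := by
    simp [mul_assoc]
  rw [h3]
  exact h2

theorem exists_sep_char {Γ : Type*} [Group Γ] (n : ℕ) [Fact n.Prime] (G H : Subgroup Γ)
    (hcomm : ∀ σ τ, σ ∈ G → τ ∈ G → σ * τ * σ⁻¹ * τ⁻¹ ∈ H)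
    (hpow : ∀ σ ∈ G, σ ^ n ∈ H) (σ₀ : Γ) (hσG : σ₀ ∈ G) (hσH : σ₀ ∉ H) :
    ∃ b : Γ → ZMod n, (∀ σ ∈ G, ∀ τ ∈ G, b (σ * τ) = b σ + b τ) ∧
      (∀ s ∈ G, s ∈ H → b s = 0) ∧ b σ₀ ≠ 0 := by
  classical
  have hnormal : (H.subgroupOf G).Normal := subgroupOf_normal_of_comm G H hcomm
  have hQcomm : ∀ a b : G ⧸ H.subgroupOf G, a * b = b * a := by
    intro a b
    induction a using QuotientGroup.induction_on with
    | H a =>
      induction b using QuotientGroup.induction_on with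
      | H b =>
        rw [← QuotientGroup.mk_mul, ← QuotientGroup.mk_mul, QuotientGroup.eq,
          Subgroup.mem_subgroupOf]
        have h1 := hcomm (b : Γ)⁻¹ (a : Γ)⁻¹ (G.inv_mem b.2) (G.inv_mem a.2)
        have h3 : (((a * b)⁻¹ * (b * a) : G) : Γ) =
            (b : Γ)⁻¹ * (a : Γ)⁻¹ * ((b : Γ)⁻¹)⁻¹ * ((a : Γ)⁻¹)⁻¹ := by
          simp [mul_assoc]
        rw [h3]
        exact h1
  have hQexp : ∀ a : G ⧸ H.subgroupOf G, a ^ n = 1 := by
    intro a
    induction a using QuotientGroup.induction_on with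
    | H a =>
      rw [← QuotientGroup.mk_pow, QuotientGroup.eq_one_iff, Subgroup.mem_subgroupOf]
      simpa using hpow a a.2
  have hne : (((⟨σ₀, hσG⟩ : G) : G ⧸ H.subgroupOf G)) ≠ 1 := by
    intro h1
    rw [QuotientGroup.eq_one_iff, Subgroup.mem_subgroupOf] at h1
    exact hσH h1
  obtain ⟨f, hfadd, hf⟩ := exists_hom_sep n hQcomm hQexp _ hne
  refine ⟨fun τ => if h : τ ∈ G then f ((⟨τ, h⟩ : G) : G ⧸ H.subgroupOf G) else 0, ?_, ?_, ?_⟩
  · intro σ hσ τ hτ
    have hστ : σ * τ ∈ G := G.mul_mem hσ hτ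
    simp only [dif_pos hσ, dif_pos hτ, dif_pos hστ]
    rw [← hfadd]
    rfl
  · intro s hs hsH
    simp only [dif_pos hs]
    have h1 : (((⟨s, hs⟩ : G) : G ⧸ H.subgroupOf G)) = 1 := by
      rw [QuotientGroup.eq_one_iff, Subgroup.mem_subgroupOf]
      exact hsH
    rw [h1]
    have h2 := hfadd 1 1
    rw [mul_one] at h2
    exact left_eq_add.mp h2
  · simp only [dif_pos hσG]
    exact hf

end Fermat.Agent.H86.MWK
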