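import Fermat.Agent.H15.MW.Weak
import Fermat.Agent.H54.Cft.KummerFinal
import Fermat.Agent.H86.MWKummerGroup

/-!
# P-MW row MW-K (helper86): `KummerFinitenessStatement`

`kummerFiniteness_of : UnramFiniteStatement → Fermat.Agent.H15.MW.KummerFinitenessStatement`,
where `UnramFiniteStatement` is row MW-K0 (every number field in `ℚ̄` is unramified outside a
finite set of primes).  The proof uses the landed Kummer dictionary KD-4
(`Fermat.Agent.H54.Cft.levelCharFinite`) over `L₀ = K(μ_n)`.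
-/

set_option autoImplicit false

namespace Fermat.Agent.H86.MWK

open IntermediateField

local notation "Qb" => AlgebraicClosure ℚ
local notation "Gq" => (AlgebraicClosure ℚ ≃ₐ[ℚ] AlgebraicClosure ℚ)

/-- Row MW-K0 as a `Prop`. -/
def UnramFiniteStatement : Prop :=
  ∀ F : IntermediateField ℚ Qb, FiniteDimensional ℚ F →
    ∃ S0 : Finset Nat.Primes, F.IsUnramifiedOutside S0

/-- `ℚ̄ / ℚ` is Galois. -/
theorem isGalois_qbar_mwk : IsGalois ℚ (AlgebraicClosure ℚ) := by
  have h : (DivisionRing.toRatAlgebra : Algebra ℚ (AlgebraicClosure ℚ)) =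
      AlgebraicClosure.instAlgebra ℚ := Subsingleton.elim _ _
  rw [h]
  infer_instance

/-- A subgroup containing the fixer of a number field is the fixer of its fixed field. -/
theorem fixingSubgroup_fixedField_of_le (H : Subgroup Gq) (E : IntermediateField ℚ Qb)
    [FiniteDimensional ℚ E] (hE : E.fixingSubgroup ≤ H) :
    (IntermediateField.fixedField H).fixingSubgroup = H := by
  have hgal := isGalois_qbar_mwk
  have hopen : IsOpen (H : Set Gq) := Subgroup.isOpen_mono hE E.fixingSubgroup_isOpen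
  have hclosed : IsClosed (H : Set Gq) := Subgroup.isClosed_of_isOpen H hopen
  exact InfiniteGalois.fixingSubgroup_fixedField ⟨H, hclosed⟩

theorem fixedField_le_of_le (H : Subgroup Gq) (E : IntermediateField ℚ Qb)
    (hE : E.fixingSubgroup ≤ H) : IntermediateField.fixedField H ≤ E := by
  have hgal := isGalois_qbar_mwk
  have h1 := IntermediateField.fixedField_antitone hE
  rwa [InfiniteGalois.fixedField_fixingSubgroup E] at h1

theorem finiteDimensional_of_le' {F E : IntermediateField ℚ Qb} (hle : F ≤ E)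
    [FiniteDimensional ℚ E] : FiniteDimensional ℚ F :=
  FiniteDimensional.of_injective (IntermediateField.inclusion hle).toLinearMap
    (IntermediateField.inclusion_injective hle)

/-- The field `K(μ_n)`. -/
theorem exists_cyclo_ext (n : ℕ) (hn : 0 < n) (K : IntermediateField ℚ Qb)
    (hK : FiniteDimensional ℚ K) :
    ∃ L0 : IntermediateField ℚ Qb, FiniteDimensional ℚ L0 ∧ K ≤ L0 ∧
      ∀ ω : Qb, ω ^ n = 1 → ω ∈ L0 := by
  classical
  have hgal := isGalois_qbar_mwk
  have halg : Algebra.IsIntegral ℚ (AlgebraicClosure ℚ) := inferInstance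
  have hfin : Finite ((Polynomial.nthRootsFinset n (1 : Qb) : Finset Qb) : Set Qb) :=
    Finset.finite_toSet _
  have h1 : FiniteDimensional ℚ
      (IntermediateField.adjoin ℚ ((Polynomial.nthRootsFinset n (1 : Qb) : Finset Qb) : Set Qb)) :=
    IntermediateField.finiteDimensional_adjoin (fun x _ => Algebra.IsIntegral.isIntegral x)
  refine ⟨K ⊔ IntermediateField.adjoin ℚ
    ((Polynomial.nthRootsFinset n (1 : Qb) : Finset Qb) : Set Qb),
    IntermediateField.finiteDimensional_sup _ _, le_sup_left, fun ω hω => ?_⟩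
  refine (le_sup_right : _ ≤ K ⊔ _) (IntermediateField.subset_adjoin ℚ _ ?_)
  rw [Finset.mem_coe, Polynomial.mem_nthRootsFinset hn]
  exact hω

theorem mem_fixingSubgroup_of_forall {F : IntermediateField ℚ Qb} {σ : Gq}
    (h : ∀ a ∈ F, σ a = a) : σ ∈ F.fixingSubgroup :=
  (IntermediateField.mem_fixingSubgroup_iff F σ).mpr h

theorem forall_of_mem_fixingSubgroup {F : IntermediateField ℚ Qb} {σ : Gq}
    (h : σ ∈ F.fixingSubgroup) : ∀ a ∈ F, σ a = a :=
  (IntermediateField.mem_fixingSubgroup_iff F σ).mp h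

/-- **Row MW-K**, from row MW-K0. -/
theorem kummerFiniteness_of (h0 : UnramFiniteStatement) :
    Fermat.Agent.H15.MW.KummerFinitenessStatement := by
  classical
  intro n hn K hK S
  have hfact : Fact n.Prime := ⟨hn⟩
  obtain ⟨L0, hL0fin, hKL0, hμ⟩ := exists_cyclo_ext n hn.pos K hK
  obtain ⟨S0, hS0⟩ := h0 L0 hL0fin
  let S'' : Finset Nat.Primes := (S.subtype Nat.Prime) ∪ S0
  have hS''mem : ∀ q : Nat.Primes, q ∉ S'' → (q : ℕ) ∉ S ∧ q ∉ S0 := by
    intro q hq
    constructor
    · intro h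
      exact hq (Finset.mem_union_left _ (Finset.mem_subtype.mpr h))
    · intro h
      exact hq (Finset.mem_union_right _ h)
  obtain ⟨bs, hbs⟩ := Fermat.Agent.H54.Cft.levelCharFinite n S'' L0 hL0fin hμ
  -- the auxiliary fields
  let Good : (Gq → ZMod n) → Prop := fun b' =>
    ∃ F : IntermediateField ℚ Qb, F.IsUnramifiedOutside S'' ∧
      ∀ s ∈ F.fixingSubgroup, s ∈ L0.fixingSubgroup → b' s = 0
  have hchoice : ∀ b' : Gq → ZMod n, ∃ F : IntermediateField ℚ Qb, FiniteDimensional ℚ F ∧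
      (Good b' → ∀ s ∈ F.fixingSubgroup, s ∈ L0.fixingSubgroup → b' s = 0) := by
    intro b'
    by_cases h : Good b'
    · obtain ⟨F, hF, hFb⟩ := h
      exact ⟨F, hF.1, fun _ => hFb⟩
    · exact ⟨⊥, (IntermediateField.isUnramifiedOutside_bot S'').1, fun h' => absurd h' h⟩
  choose Fof hFof_fin hFof_spec using hchoice
  have hsupfin : FiniteDimensional ℚ (⨆ b' ∈ bs, Fof b' : IntermediateField ℚ Qb) :=
    IntermediateField.finiteDimensional_iSup_of_finset' (fun b' _ => hFof_fin b')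
  refine ⟨L0 ⊔ ⨆ b' ∈ bs, Fof b', IntermediateField.finiteDimensional_sup _ _, ?_⟩
  intro H hM hcomm hpow hram σ hσ
  by_contra hσH
  obtain ⟨M, hMfin, hMH⟩ := hM
  -- `σ` fixes `L0` and every `Fof b'`
  have hσL0 : σ ∈ L0.fixingSubgroup :=
    mem_fixingSubgroup_of_forall fun a ha => hσ a ((le_sup_left : L0 ≤ _) ha)
  have hσF : ∀ b' ∈ bs, σ ∈ (Fof b').fixingSubgroup := by
    intro b' hb'
    refine mem_fixingSubgroup_of_forall fun a ha => hσ a ?_
    refine (le_sup_right : _ ≤ L0 ⊔ _) ?_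
    exact (le_iSup₂ (f := fun b' (_ : b' ∈ bs) => Fof b') b' hb') ha
  -- elements of `G_L0` fix `K`
  have hGK : ∀ τ ∈ L0.fixingSubgroup, ∀ a ∈ K, τ a = a :=
    fun τ hτ a ha => forall_of_mem_fixingSubgroup hτ a (hKL0 ha)
  -- the separating character
  obtain ⟨b, hbadd, hbH, hbσ⟩ := exists_sep_char n L0.fixingSubgroup H
    (fun τ ρ hτ hρ => hcomm τ ρ (hGK τ hτ) (hGK ρ hρ))
    (fun τ hτ => hpow τ (hGK τ hτ)) σ hσL0 hσH
  -- `b` is an `S''`-level character of `G_L0`
  have hE : (L0 ⊔ M).fixingSubgroup ≤ H ⊓ L0.fixingSubgroup := by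
    intro τ hτ
    refine ⟨hMH τ fun a ha => forall_of_mem_fixingSubgroup hτ a ((le_sup_right : M ≤ _) ha), ?_⟩
    exact IntermediateField.fixingSubgroup_antitone (le_sup_left : L0 ≤ L0 ⊔ M) hτ
  have hEfin : FiniteDimensional ℚ (L0 ⊔ M : IntermediateField ℚ Qb) :=
    IntermediateField.finiteDimensional_sup _ _
  have hfix := fixingSubgroup_fixedField_of_le (H ⊓ L0.fixingSubgroup) (L0 ⊔ M) hE
  have hFfin : FiniteDimensional ℚ (IntermediateField.fixedField (H ⊓ L0.fixingSubgroup)) :=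
    finiteDimensional_of_le' (fixedField_le_of_le _ _ hE)
  have hlevel : Fermat.Agent.H54.Cft.IsLevelCharS S'' L0 b := by
    refine ⟨hbadd, IntermediateField.fixedField (H ⊓ L0.fixingSubgroup), ⟨hFfin, ?_⟩, ?_⟩
    · intro q hq A hA τ hτ
      rw [hfix]
      obtain ⟨hqS, hqS0⟩ := hS''mem q hq
      have hτL0 : τ ∈ L0.fixingSubgroup := hS0.2 q hqS0 A hA hτ
      exact ⟨hram q q.2 hqS A hA τ hτ (hGK τ hτL0), hτL0⟩
    · intro s hs hsL0
      rw [hfix] at hs
      exact hbH s hsL0 hs.1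
  obtain ⟨b', hb'bs, hb'⟩ := hbs b hlevel
  have hgood : Good b' := by
    obtain ⟨_, F, hF, hFb⟩ := hlevel
    exact ⟨F, hF, fun s hs hsL0 => by rw [← hb' s hsL0]; exact hFb s hs hsL0⟩
  have h1 := hFof_spec b' hgood σ (hσF b' hb'bs) hσL0
  rw [← hb' σ hσL0] at h1
  exact hbσ h1

end Fermat.Agent.H86.MWK
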