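import Mathlib
import Fermat.Prelude.Def_CuspForm_HeckeEvalForms
import Fermat.Prelude.Def_ModularCurve_PeriodHomPair
import Fermat.Prelude.Def_ModularCurve_ModularUnit
import Fermat.Agent.H86.HomHecke

/-!
# S16, lower bound `n ∣ #(𝕋/I)` (helper86): interfaces

Route (findings #201 [LB], #149 (i), #166 (3)): the Shimura class
`φ₀ : Γ₀(p) → (ℤ/p)ˣ → ℤ/n`, `n = (p-1)/gcd(p-1,12)`, kills parabolic and elliptic elements and is
an Eisenstein eigenclass for the Hecke operators `homHeckeGen` on `Hom(Γ₀(p), ℤ/n)`; it lifts to a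
parabolic class `ψ₀ : Γ₀(p) → ℤ`; the period isomorphism of S21 is Hecke-equivariant, so a Hecke
polynomial `P` killing `S₂(Γ₀(p))` kills `ψ₀`, hence `χ(P) φ₀ = 0`, i.e. `n ∣ χ(P)`.

All statements are `Prop`-valued definitions; the proofs are separate modules.
-/

set_option autoImplicit false

namespace Fermat.Agent.H86

open CongruenceSubgroup Matrix.SpecialLinearGroup
open scoped MatrixGroups

/-- `φ` kills the elements of `Γ₀(N)` with `trace² = 4` (same predicate as
`ModularCurve.Period.IsParabolicHom`). -/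
def KillsParabolic {N : ℕ} {A : Type*} [AddCommGroup A] (φ : Additive (Gamma0 N) →+ A) : Prop :=
  ∀ γ : Gamma0 N, ((γ : SL(2, ℤ)) : Matrix (Fin 2) (Fin 2) ℤ).trace ^ 2 = 4 →
    φ (Additive.ofMul γ) = 0

/-- `φ` kills the elements of finite order of `Γ₀(N)`. -/
def KillsElliptic {N : ℕ} {A : Type*} [AddCommGroup A] (φ : Additive (Gamma0 N) →+ A) : Prop :=
  ∀ γ : Gamma0 N, IsOfFinOrder γ → φ (Additive.ofMul γ) = 0

/-- **(E)** Hecke-equivariance of the period map of the prelude: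
`periodMap (T_ℓ f) = T_ℓ (periodMap f)` (`U_ℓ` for `ℓ ∣ N`). -/
def PeriodEquivStatement : Prop :=
  ∀ (N : ℕ) [NeZero N] (ℓ : Nat.Primes) (f : CuspForm (Gamma0 N) 2),
    ModularCurve.periodMap N
        (((CuspForm.heckeFormsGen N 2 ℓ : CuspForm.heckeAlgebra N 2 ∅) :
          Module.End ℂ (CuspForm (Gamma0 N) 2)) f)
      = homHeckeGen N ℂ ℓ (ModularCurve.periodMap N f)

/-- **(I)** the Hecke operators on `Hom(Γ₀(N), ℂ)` commute with the involution induced by
conjugation with `diag(1, -1)`. -/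
def InvolutionCommStatement : Prop :=
  ∀ (N : ℕ) [NeZero N] (ℓ : Nat.Primes) (φ : Additive (Gamma0 N) →+ ℂ),
    ModularCurve.Period.charInvolution N ℂ ℂ (homHeckeGen N ℂ ℓ φ)
      = homHeckeGen N ℂ ℓ (ModularCurve.Period.charInvolution N ℂ ℂ φ)

/-- **(Sh)** the Shimura class: a homomorphism `Γ₀(p) → ℤ/n`, `n = eisensteinNumerator p`,
killing parabolic and elliptic elements, taking the value `1`, and Eisenstein for all Hecke
operators. -/
def ShimuraClassStatement : Prop :=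
  ∀ (p : ℕ) [Fact p.Prime],
    ∃ φ₀ : Additive (Gamma0 p) →+ ZMod (ModularCurve.eisensteinNumerator p),
      KillsParabolic φ₀ ∧ KillsElliptic φ₀ ∧ (∃ γ : Gamma0 p, φ₀ (Additive.ofMul γ) = 1) ∧
      ∀ ℓ : Nat.Primes,
        homHeckeGen p (ZMod (ModularCurve.eisensteinNumerator p)) ℓ φ₀
          = (ModularCurve.eisensteinSystem p ℓ) • φ₀

/-- **(Lift-1)** bound modulo a prime `ℓ`: the homomorphisms `Γ₀(N) → 𝔽_ℓ` killing parabolic and
elliptic elements are at most `ℓ ^ (2 dim S₂(Γ₀(N)))` in number (H28's cocycle bound over `𝔽_ℓ`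
with functions vanishing at the fixed points of `S` and `ST`, plus S20). -/
def ModLBoundStatement : Prop :=
  ∀ (N : ℕ) [NeZero N] (ℓ : ℕ) [Fact ℓ.Prime],
    Finite {φ : Additive (Gamma0 N) →+ ZMod ℓ // KillsParabolic φ ∧ KillsElliptic φ} ∧
    Nat.card {φ : Additive (Gamma0 N) →+ ZMod ℓ // KillsParabolic φ ∧ KillsElliptic φ}
      ≤ ℓ ^ (2 * Module.finrank ℂ (CuspForm (Gamma0 N) 2))

/-- **(Lift-2)** abstract lifting lemma: `A` a finitely generated abelian group, `E` a subgroup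
of torsion elements, `ρ = dim_ℂ Hom(A, ℂ)`; if for every prime `ℓ` there are at most `ℓ ^ ρ`
homomorphisms `A → 𝔽_ℓ` killing `E`, then every homomorphism `A → ℤ/n` killing `E` lifts to `ℤ`. -/
def AbstractLiftStatement : Prop :=
  ∀ (A : Type) [AddCommGroup A] [AddGroup.FG A] (E : AddSubgroup A),
    (∀ e ∈ E, IsOfFinAddOrder e) →
    (∀ (ℓ : ℕ) [Fact ℓ.Prime],
      Finite {φ : A →+ ZMod ℓ // ∀ e ∈ E, φ e = 0} ∧
      Nat.card {φ : A →+ ZMod ℓ // ∀ e ∈ E, φ e = 0} ≤ ℓ ^ Module.finrank ℂ (A →+ ℂ)) →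
    ∀ (n : ℕ), 0 < n → ∀ φ : A →+ ZMod n, (∀ e ∈ E, φ e = 0) →
      ∃ ψ : A →+ ℤ, ∀ a : A, ((ψ a : ℤ) : ZMod n) = φ a

/-- **(Lift)** every homomorphism `Γ₀(N) → ℤ/n` killing parabolic and elliptic elements is the
reduction of a parabolic homomorphism `Γ₀(N) → ℤ`. -/
def LiftStatement : Prop :=
  ∀ (N : ℕ) [NeZero N] (n : ℕ), 0 < n → ∀ φ : Additive (Gamma0 N) →+ ZMod n,
    KillsParabolic φ → KillsElliptic φ →
    ∃ ψ : Additive (Gamma0 N) →+ ℤ, KillsParabolic ψ ∧
      ∀ γ : Gamma0 N, ((ψ (Additive.ofMul γ) : ℤ) : ZMod n) = φ (Additive.ofMul γ)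

/-- The Eichler–Shimura statement S21 (landed as `Fermat.Agent.S21.result`), as a hypothesis. -/
def EichlerShimuraStatement : Prop :=
  ∀ (N : ℕ) [NeZero N],
    Function.Injective (ModularCurve.periodHomPair N)
      ∧ LinearMap.range (ModularCurve.periodHomPair N)
          = ModularCurve.Period.parabolicHoms ℂ (CongruenceSubgroup.Gamma0 N) ℂ

/-- Existence of equivariant primitives (landed as `Fermat.Agent.H63.exists_hasEquivariantPrimitive`),
as a hypothesis. -/
def ExistsPrimitiveStatement : Prop :=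
  ∀ (N : ℕ) [NeZero N] (f : CuspForm (Gamma0 N) 2),
    ∃ F : UpperHalfPlane → ℂ, ModularCurve.HasEquivariantPrimitive N f F

/-- **(LB)** the lower bound: a Hecke polynomial acting as zero on `S₂(Γ₀(p))` has Eisenstein
value divisible by `n = eisensteinNumerator p`. -/
def LowerBoundStatement : Prop :=
  ∀ (p : ℕ) [Fact p.Prime] (P : ModularCurve.HeckeAlg),
    (haveI : NeZero p := ⟨(Fact.out : p.Prime).ne_zero⟩; CuspForm.heckeEvalForms p 2 P = 0) →
    ((ModularCurve.eisensteinNumerator p : ℕ) : ℤ) ∣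
      MvPolynomial.aeval (ModularCurve.eisensteinSystem p) P

end Fermat.Agent.H86
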